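import Fermat.Agent.S36R.Inj.Transfer

/-!
# S36 route R: "where `a = ∞`, also `b = ∞`"

`a` integral over `O[b]` ⟹ there is `λ ∈ 1 + a⁻¹ O[a⁻¹]` with `λ b⁻¹` integral over `O[a⁻¹]`.
Consequently, if `R₁` is integrally closed, contains `O[a⁻¹]`, and `𝔫` is a prime of `R₁` containing `a⁻¹`, then
`b⁻¹` and the whole integral closure of `O[b⁻¹]` are contained in `locAt 𝔫`.
-/

set_option autoImplicit false
set_option maxHeartbeats 400000

namespace Fermat.Agent.S36R.Inj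

open Polynomial

variable {O : Type*} [CommRing O] {F : Type*} [Field F] [Algebra O F]

/-- an element of `O[b]` is `o + b u'`. -/
theorem InvIntegral_split {b : F} (u : F) (hu : u ∈ Algebra.adjoin O {b}) :
    ∃ (o : O) (u' : F), u' ∈ Algebra.adjoin O {b} ∧ u = algebraMap O F o + b * u' := by
  have hb : b ∈ Algebra.adjoin O {b} := Algebra.subset_adjoin rfl
  induction hu using Algebra.adjoin_induction with
  | mem x hx =>
    rw [Set.mem_singleton_iff] at hx
    subst hx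
    exact ⟨0, 1, one_mem _, by simp⟩
  | algebraMap r => exact ⟨r, 0, zero_mem _, by simp⟩
  | add p q _ _ hp hq =>
    obtain ⟨o, u', hu', e⟩ := hp
    obtain ⟨o₂, u₂, hu₂, e₂⟩ := hq
    exact ⟨o + o₂, u' + u₂, add_mem hu' hu₂, by rw [e, e₂, map_add]; ring⟩
  | mul p q _ hq' hp hq =>
    obtain ⟨o, u', hu', e⟩ := hp
    obtain ⟨o₂, u₂, hu₂, e₂⟩ := hq
    refine ⟨o * o₂, algebraMap O F o * u₂ + u' * q, add_mem (mul_mem (Subalgebra.algebraMap_mem _ o) hu₂)
      (mul_mem hu' hq'), ?_⟩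
    have e3 : p * q = algebraMap O F o * q + b * (u' * q) := by rw [e]; ring
    rw [e3, map_mul]
    nth_rewrite 1 [e₂]
    ring

/-- if `l x ∈ S[x⁻¹]` then `l x` is integral over `S`. -/
theorem InvIntegral_of_mem_adjoin_inv {S : Type*} [CommRing S] [Algebra S F] {x : F} (hx : x ≠ 0)
    (l : S) (h : algebraMap S F l * x ∈ Algebra.adjoin S {x⁻¹}) :
    IsIntegral S (algebraMap S F l * x) := by
  rw [Algebra.adjoin_singleton_eq_range_aeval] at h
  obtain ⟨R, hR⟩ := h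
  set e := R.natDegree with he
  set z := algebraMap S F l * x with hz
  set Q : S[X] := ∑ j ∈ Finset.range (e + 1), C (R.coeff j * l ^ j) * X ^ (e - j) with hQ
  have hdeg : Q.degree ≤ e := by
    refine (degree_sum_le _ _).trans (Finset.sup_le fun j _ => ?_)
    refine (degree_C_mul_X_pow_le _ _).trans ?_
    exact_mod_cast Nat.sub_le e j
  refine ⟨X ^ (e + 1) - Q, monic_X_pow_sub (lt_of_le_of_lt hdeg (by exact_mod_cast Nat.lt_succ_self e)), ?_⟩
  rw [eval₂_sub, eval₂_pow, eval₂_X, hQ, eval₂_finsetSum, sub_eq_zero]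
  have h1 : z ^ (e + 1) = z ^ e * aeval x⁻¹ R := by
    rw [pow_succ]; congr 1; exact hR.symm
  rw [h1, aeval_eq_sum_range, Finset.mul_sum]
  refine Finset.sum_congr rfl fun j hj => ?_
  have hj' : j ≤ e := Nat.lt_succ_iff.1 (Finset.mem_range.1 hj)
  rw [eval₂_mul, eval₂_C, eval₂_pow, eval₂_X, Algebra.smul_def, map_mul, map_pow]
  obtain ⟨d, hd⟩ := Nat.exists_eq_add_of_le hj'
  rw [hd, Nat.add_sub_cancel_left, hz, pow_add, mul_pow, mul_pow, inv_pow]
  have hxj : x ^ j ≠ 0 := pow_ne_zero j hx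
  field_simp

/-- **Main lemma.** -/
theorem exists_mul_inv_isIntegral {a b : F} (ha : a ≠ 0) (hb : b ≠ 0)
    (h : IsIntegral (Algebra.adjoin O {b}) a) :
    ∃ l l' : Algebra.adjoin O {a⁻¹}, (l : F) = 1 + a⁻¹ * l' ∧
      IsIntegral (Algebra.adjoin O {a⁻¹}) ((l : F) * b⁻¹) := by
  classical
  obtain ⟨p, hp, hpa⟩ := h
  set D := p.natDegree with hD
  set S := Algebra.adjoin O {a⁻¹} with hS
  have hy : a⁻¹ ∈ S := Algebra.subset_adjoin rfl
  have hsplit : ∀ i, ∃ (o : O) (u' : F), u' ∈ Algebra.adjoin O {b} ∧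
      ((p.coeff i : Algebra.adjoin O {b}) : F) = algebraMap O F o + b * u' :=
    fun i => InvIntegral_split _ (p.coeff i).2
  choose o u' hu' e using hsplit
  -- the equation
  have h1 : a ^ D + ∑ i ∈ Finset.range D, (algebraMap O F (o i) + b * u' i) * a ^ i = 0 := by
    rw [eval₂_eq_sum_range, Finset.sum_range_succ, ← hD, hp.coeff_natDegree, map_one, one_mul,
      add_comm] at hpa
    rw [← hpa]
    congr 1
    refine Finset.sum_congr rfl fun i _ => ?_
    rw [← e i]; rfl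
  -- multiply by `a⁻¹ ^ D`
  have h2 : (1 + ∑ i ∈ Finset.range D, algebraMap O F (o i) * a⁻¹ ^ (D - i))
      + b * ∑ i ∈ Finset.range D, u' i * a⁻¹ ^ (D - i) = 0 := by
    have h3 : a⁻¹ ^ D * (a ^ D + ∑ i ∈ Finset.range D, (algebraMap O F (o i) + b * u' i) * a ^ i) = 0 := by
      rw [h1, mul_zero]
    rw [mul_add, ← mul_pow, inv_mul_cancel₀ ha, one_pow, Finset.mul_sum] at h3
    rw [← h3, add_assoc, Finset.mul_sum, ← Finset.sum_add_distrib]
    congr 1
    refine Finset.sum_congr rfl fun i hi => ?_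
    have hi' : i ≤ D := (Finset.mem_range.1 hi).le
    obtain ⟨d, hd⟩ := Nat.exists_eq_add_of_le hi'
    rw [hd, Nat.add_sub_cancel_left, pow_add]
    have hai : a ^ i ≠ 0 := pow_ne_zero i ha
    rw [inv_pow, inv_pow]
    field_simp
  -- `l'`
  have hl' : ∑ i ∈ Finset.range D, algebraMap O F (o i) * a⁻¹ ^ (D - i - 1) ∈ S :=
    sum_mem fun i _ => mul_mem (Subalgebra.algebraMap_mem _ _) (pow_mem hy _)
  have hsum : ∑ i ∈ Finset.range D, algebraMap O F (o i) * a⁻¹ ^ (D - i)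
      = a⁻¹ * ∑ i ∈ Finset.range D, algebraMap O F (o i) * a⁻¹ ^ (D - i - 1) := by
    rw [Finset.mul_sum]
    refine Finset.sum_congr rfl fun i hi => ?_
    have hi' : i < D := Finset.mem_range.1 hi
    obtain ⟨d, hd⟩ : ∃ d, D - i = d + 1 := ⟨D - i - 1, by omega⟩
    rw [hd, Nat.add_sub_cancel, pow_succ]; ring
  have hl : 1 + a⁻¹ * ∑ i ∈ Finset.range D, algebraMap O F (o i) * a⁻¹ ^ (D - i - 1) ∈ S :=
    add_mem (one_mem _) (mul_mem hy hl')
  refine ⟨⟨_, hl⟩, ⟨_, hl'⟩, rfl, ?_⟩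
  have key := InvIntegral_of_mem_adjoin_inv (S := S) (x := b⁻¹) (inv_ne_zero hb) ⟨_, hl⟩ ?_
  · exact key
  · rw [inv_inv]
    have h4 : algebraMap S F ⟨_, hl⟩ * b⁻¹ = - ∑ i ∈ Finset.range D, u' i * a⁻¹ ^ (D - i) := by
      show (1 + a⁻¹ * ∑ i ∈ Finset.range D, algebraMap O F (o i) * a⁻¹ ^ (D - i - 1)) * b⁻¹ = _
      rw [← hsum]
      have h5 : 1 + ∑ i ∈ Finset.range D, algebraMap O F (o i) * a⁻¹ ^ (D - i)
          = - (b * ∑ i ∈ Finset.range D, u' i * a⁻¹ ^ (D - i)) := by linear_combination h2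
      rw [h5, neg_mul, mul_comm b, mul_assoc, mul_inv_cancel₀ hb, mul_one]
    rw [h4]
    refine neg_mem (sum_mem fun i _ => mul_mem ?_ ?_)
    · -- `O[b] ⊆ S[b]`
      have : ∀ u ∈ Algebra.adjoin O {b}, u ∈ Algebra.adjoin S {b} := by
        intro u hu
        induction hu using Algebra.adjoin_induction with
        | mem x hx => exact Algebra.subset_adjoin hx
        | algebraMap r =>
          have : algebraMap O F r = algebraMap S F (algebraMap O S r) := rfl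
          rw [this]; exact Subalgebra.algebraMap_mem _ _
        | add p q _ _ hp hq => exact add_mem hp hq
        | mul p q _ _ hp hq => exact mul_mem hp hq
      exact this _ (hu' i)
    · have : a⁻¹ ^ (D - i) = algebraMap S F (⟨a⁻¹, hy⟩ ^ (D - i)) := by
        rw [map_pow]; rfl
      rw [this]; exact Subalgebra.algebraMap_mem _ _

/-- the localisation of an integrally closed subring is integrally closed. -/
theorem locAt_isIntegral_mem {R : Subring F} (hcl : ∀ z : F, IsIntegral R z → z ∈ R) (𝔫 : Ideal R)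
    [h𝔫 : 𝔫.IsPrime] (z : F) (hz : IsIntegral (locAt 𝔫) z) : z ∈ locAt 𝔫 := by
  classical
  obtain ⟨p, hp, hpz⟩ := hz
  -- a common denominator
  have h1 : ∀ i, ∃ s : R, s ∉ 𝔫 ∧ (s : F) * (p.coeff i : F) ∈ R := fun i => (p.coeff i).2
  choose σ hσ hσR using h1
  set s : R := ∏ i ∈ Finset.range (p.natDegree + 1), σ i with hs
  have hs𝔫 : s ∉ 𝔫 := by
    intro hmem
    obtain ⟨i, _, hi⟩ := (h𝔫.prod_mem_iff).1 hmem
    exact hσ i hi
  have hsR : ∀ i ≤ p.natDegree, (s : F) * (p.coeff i : F) ∈ R := by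
    intro i hi
    have hi' : i ∈ Finset.range (p.natDegree + 1) := Finset.mem_range.2 (by omega)
    rw [hs, ← Finset.mul_prod_erase _ _ hi']
    push_cast
    have : (σ i : F) * (∏ j ∈ (Finset.range (p.natDegree + 1)).erase i, (σ j : F)) * (p.coeff i : F)
        = (∏ j ∈ (Finset.range (p.natDegree + 1)).erase i, (σ j : F)) * ((σ i : F) * (p.coeff i : F)) := by
      ring
    rw [this]
    exact mul_mem (prod_mem fun j _ => (σ j).2) (hσR i)
  refine ⟨s, hs𝔫, hcl _ ?_⟩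
  set P : F[X] := (p.map (algebraMap (locAt 𝔫) F)).scaleRoots (s : F) with hP
  have hPm : P.Monic := (monic_scaleRoots_iff _).2 (hp.map _)
  have hdeg : (p.map (algebraMap (locAt 𝔫) F)).natDegree = p.natDegree := hp.natDegree_map _
  have hPz : P.eval ((s : F) * z) = 0 := by
    have h0 : (p.map (algebraMap (locAt 𝔫) F)).eval z = 0 := by rw [eval_map]; exact hpz
    have := scaleRoots_eval₂_eq_zero (RingHom.id F) (p := p.map (algebraMap (locAt 𝔫) F))
      (r := z) (s := (s : F)) (by rwa [eval₂_id])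
    rw [eval₂_id] at this
    exact this
  have hcoef : ∀ i, P.coeff i ∈ R := by
    intro i
    rw [hP, coeff_scaleRoots, hdeg, coeff_map]
    rcases lt_trichotomy i p.natDegree with hi | hi | hi
    · obtain ⟨e, he⟩ : ∃ e, p.natDegree - i = e + 1 := ⟨p.natDegree - i - 1, by omega⟩
      rw [he, pow_succ]
      have : algebraMap (locAt 𝔫) F (p.coeff i) * ((s : F) ^ e * s)
          = (s : F) ^ e * ((s : F) * (p.coeff i : F)) := by
        rw [show algebraMap (locAt 𝔫) F (p.coeff i) = (p.coeff i : F) from rfl]; ring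
      rw [this]
      exact mul_mem (pow_mem s.2 e) (hsR i hi.le)
    · subst hi
      rw [Nat.sub_self, pow_zero, mul_one, hp.coeff_natDegree, map_one]
      exact one_mem _
    · rw [coeff_eq_zero_of_natDegree_lt hi, map_zero, zero_mul]
      exact zero_mem _
  have hsub : (↑P.coeffs : Set F) ⊆ R := by
    intro y hy
    obtain ⟨i, _, rfl⟩ := by simpa [coeffs] using hy
    exact hcoef i
  refine ⟨P.toSubring R hsub, (monic_toSubring _ _ _).2 hPm, ?_⟩
  have h2 := map_toSubring P R hsub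
  have h3 : eval ((s : F) * z) (map R.subtype (P.toSubring R hsub)) = 0 := by rw [h2]; exact hPz
  rw [eval_map] at h3
  exact h3

/-- **Corollary.** `a` integral over `O[b]`, `R` integrally closed in `F` and containing `O[a⁻¹]`, `𝔫` a prime of `R`
containing `a⁻¹`: then `b⁻¹ ∈ locAt 𝔫`. -/
theorem inv_mem_locAt {a b : F} (ha : a ≠ 0) (hb : b ≠ 0) (h : IsIntegral (Algebra.adjoin O {b}) a)
    {R : Subring F} (hR : ∀ z : F, IsIntegral (Algebra.adjoin O {a⁻¹}) z → z ∈ R) (𝔫 : Ideal R)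
    [h𝔫 : 𝔫.IsPrime] (ha𝔫 : ∀ x : R, (x : F) = a⁻¹ → x ∈ 𝔫) : b⁻¹ ∈ locAt 𝔫 := by
  obtain ⟨l, l', hl, hint⟩ := exists_mul_inv_isIntegral (O := O) ha hb h
  have hS : ∀ x : Algebra.adjoin O {a⁻¹}, (x : F) ∈ R := fun x => hR _ isIntegral_algebraMap
  have hy : a⁻¹ ∈ Algebra.adjoin O {a⁻¹} := Algebra.subset_adjoin rfl
  refine ⟨⟨l, hS l⟩, ?_, hR _ hint⟩
  intro hmem
  have h1 : (⟨a⁻¹, hS ⟨_, hy⟩⟩ : R) * ⟨l', hS l'⟩ ∈ 𝔫 := 𝔫.mul_mem_right _ (ha𝔫 _ rfl)
  have h2 : (1 : R) = ⟨l, hS l⟩ - ⟨a⁻¹, hS ⟨_, hy⟩⟩ * ⟨l', hS l'⟩ := by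
    apply Subtype.ext
    push_cast
    rw [hl]; ring
  exact h𝔫.ne_top ((Ideal.eq_top_iff_one _).2 (h2 ▸ 𝔫.sub_mem hmem h1))

/-- **Corollary.** under the same hypotheses the whole integral closure of `O[b⁻¹]` lies in `locAt 𝔫`. -/
theorem isIntegral_inv_mem_locAt {a b : F} (ha : a ≠ 0) (hb : b ≠ 0)
    (h : IsIntegral (Algebra.adjoin O {b}) a) {R : Subring F}
    (hR : ∀ z : F, IsIntegral (Algebra.adjoin O {a⁻¹}) z → z ∈ R)
    (hcl : ∀ z : F, IsIntegral R z → z ∈ R) (𝔫 : Ideal R)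
    [h𝔫 : 𝔫.IsPrime] (ha𝔫 : ∀ x : R, (x : F) = a⁻¹ → x ∈ 𝔫) (z : F)
    (hz : IsIntegral (Algebra.adjoin O {b⁻¹}) z) : z ∈ locAt 𝔫 := by
  have hb' := inv_mem_locAt (O := O) ha hb h hR 𝔫 ha𝔫
  have hO : ∀ r : O, algebraMap O F r ∈ locAt 𝔫 := fun r =>
    le_locAt 𝔫 (hR _ (isIntegral_algebraMap (x := algebraMap O (Algebra.adjoin O {a⁻¹}) r)))
  have hle : ∀ u ∈ Algebra.adjoin O {b⁻¹}, u ∈ locAt 𝔫 := by
    intro u hu
    induction hu using Algebra.adjoin_induction with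
    | mem x hx => rw [Set.mem_singleton_iff] at hx; rw [hx]; exact hb'
    | algebraMap r => exact hO r
    | add p q _ _ hp hq => exact add_mem hp hq
    | mul p q _ _ hp hq => exact mul_mem hp hq
  apply locAt_isIntegral_mem hcl 𝔫
  obtain ⟨p, hp, hpz⟩ := hz
  let φ : Algebra.adjoin O {b⁻¹} →+* locAt 𝔫 :=
    { toFun := fun u => ⟨u, hle u u.2⟩
      map_one' := rfl
      map_mul' := fun _ _ => rfl
      map_zero' := rfl
      map_add' := fun _ _ => rfl }
  refine ⟨p.map φ, hp.map φ, ?_⟩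
  rw [eval₂_map]
  exact hpz

end Fermat.Agent.S36R.Inj
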