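/-
S36, route R, block (7) INJ_reg, step (d) ⇒ (b)  (helper54).

`h / G` has, along every vertical branch `W i` through the closed point `nn`, a residue which is
a fraction `a i / b i` of elements of `R`, and all these fractions have the same value at `nn`.
Since the `n`-th power of `h / G` is (modulo the branches) the unit `t / s` of `R_nn`, and since the
quotient `∏ R_nn / p i` by `R_nn / ⋂ p i` is killed by a power of `nn` (conductor) in
characteristic `q` prime to `n`, ONE fraction `u1 / u2` works for all the branches.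

Everything is done elementwise (no localisation, no residue fields).
-/
import Mathlib

set_option autoImplicit false

namespace Fermat.Agent.S36R.Inj

open Ideal

section Abstract

variable {R : Type*} [CommRing R] {ι : Type*}

/-- Conductor, one index: an element of `nn ^ (N * #J)` can be moved (up to the factor `c ^ #J`)
into all the `p j`, `j ∈ J`, without changing it modulo `p i`. -/
theorem exists_conductor_one (nn : Ideal R) (p : ι → Ideal R) (N : ℕ) (c : R) (i : ι)
    (J : Finset ι)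
    (hc : ∀ j ∈ J, ∀ x ∈ nn ^ N, c * x ∈ p i ⊔ p j) :
    ∀ y ∈ nn ^ (N * J.card), ∃ z : R, z - c ^ J.card * y ∈ p i ∧ ∀ j ∈ J, z ∈ p j := by
  classical
  induction J using Finset.induction_on with
  | empty =>
    intro y _
    exact ⟨y, by simp, by simp⟩
  | insert j0 J hj0 ih =>
    have ih' := ih (fun j hj => hc j (Finset.mem_insert_of_mem hj))
    have hc0 := hc j0 (Finset.mem_insert_self _ _)
    rw [Finset.card_insert_of_notMem hj0, Nat.mul_succ, pow_add]
    intro y hy
    refine Submodule.mul_induction_on hy ?_ ?_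
    · intro y' hy' x hx
      obtain ⟨z', hz'i, hz'J⟩ := ih' y' hy'
      obtain ⟨al, hal, be, hbe, hsum⟩ := Submodule.mem_sup.mp (hc0 x hx)
      refine ⟨z' * be, ?_, ?_⟩
      · have : z' * be - c ^ (J.card + 1) * (y' * x)
            = (z' - c ^ J.card * y') * be - c ^ J.card * y' * al := by
          have hx' : c * x = al + be := hsum.symm
          calc z' * be - c ^ (J.card + 1) * (y' * x)
              = z' * be - c ^ J.card * y' * (c * x) := by ring
            _ = (z' - c ^ J.card * y') * be - c ^ J.card * y' * al := by rw [hx']; ring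
        rw [this]
        exact (p i).sub_mem ((p i).mul_mem_right _ hz'i) ((p i).mul_mem_left _ hal)
      · intro j hj
        rcases Finset.mem_insert.mp hj with rfl | hj
        · exact (p j).mul_mem_left _ hbe
        · exact (p j).mul_mem_right _ (hz'J j hj)
    · intro y1 y2 ⟨z1, h1, h1'⟩ ⟨z2, h2, h2'⟩
      refine ⟨z1 + z2, ?_, fun j hj => (p j).add_mem (h1' j hj) (h2' j hj)⟩
      have : z1 + z2 - c ^ (J.card + 1) * (y1 + y2)
          = (z1 - c ^ (J.card + 1) * y1) + (z2 - c ^ (J.card + 1) * y2) := by ring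
      rw [this]
      exact (p i).add_mem h1 h2

/-- Conductor: a family `y i ∈ nn ^ (N * (#T - 1))` is, up to the factor `c ^ (#T - 1)`,
simultaneously congruent modulo the `p i` to one element `z`. -/
theorem exists_conductor (nn : Ideal R) (p : ι → Ideal R) (T : Finset ι) (N : ℕ) (c : R)
    (hc : ∀ i ∈ T, ∀ j ∈ T, i ≠ j → ∀ x ∈ nn ^ N, c * x ∈ p i ⊔ p j)
    (y : ι → R) (hy : ∀ i ∈ T, y i ∈ nn ^ (N * (T.card - 1))) :
    ∃ z : R, ∀ i ∈ T, z - c ^ (T.card - 1) * y i ∈ p i := by
  classical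
  have key : ∀ i ∈ T, ∃ z : R, z - c ^ (T.card - 1) * y i ∈ p i ∧ ∀ j ∈ T.erase i, z ∈ p j := by
    intro i hi
    have hcard : (T.erase i).card = T.card - 1 := Finset.card_erase_of_mem hi
    have := exists_conductor_one nn p N c i (T.erase i)
      (fun j hj => hc i hi j (Finset.mem_of_mem_erase hj) (Finset.ne_of_mem_erase hj).symm)
      (y i) (by rw [hcard]; exact hy i hi)
    rwa [hcard] at this
  choose! z hz hz' using key
  refine ⟨∑ j ∈ T, z j, fun i hi => ?_⟩
  rw [← Finset.add_sum_erase T z hi]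
  have : z i + ∑ j ∈ T.erase i, z j - c ^ (T.card - 1) * y i
      = (z i - c ^ (T.card - 1) * y i) + ∑ j ∈ T.erase i, z j := by ring
  rw [this]
  refine (p i).add_mem (hz i hi) (Ideal.sum_mem _ fun j hj => ?_)
  exact hz' j (Finset.mem_of_mem_erase hj) i
    (Finset.mem_erase.mpr ⟨(Finset.ne_of_mem_erase hj).symm, hi⟩)

/-- The abstract form of (d) ⇒ (b): fractions `a i / b` modulo `p i` with the same value `e` at `nn`
and the same `n`-th power `t / s` are induced by one fraction `u1 / u2`. -/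
theorem exists_common_fraction (nn : Ideal R) [nn.IsPrime] (p : ι → Ideal R) (T : Finset ι)
    (hp : ∀ i ∈ T, p i ≤ nn) (q n : ℕ) (hq : q.Prime) (hqn : n.Coprime q)
    (hqp : ∀ i ∈ T, (q : R) ∈ p i)
    (N : ℕ) (c : R) (hcn : c ∉ nn)
    (hc : ∀ i ∈ T, ∀ j ∈ T, i ≠ j → ∀ x ∈ nn ^ N, c * x ∈ p i ⊔ p j)
    (a : ι → R) (b e s t : R) (hb : b ∉ nn) (he : e ∉ nn) (hs : s ∉ nn) (ht : t ∉ nn)
    (ha : ∀ i ∈ T, a i - e * b ∈ nn)
    (hpow : ∀ i ∈ T, s * a i ^ n - t * b ^ n ∈ p i) :
    ∃ u1 u2 : R, u1 ∉ nn ∧ u2 ∉ nn ∧ ∀ i ∈ T, a i * u2 - b * u1 ∈ p i := by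
  classical
  have hprime : nn.IsPrime := inferInstance
  have hmul : ∀ {x y : R}, x ∉ nn → y ∉ nn → x * y ∉ nn := fun hx hy hxy =>
    (hprime.mem_or_mem hxy).elim hx hy
  have hpw : ∀ {x : R} (k : ℕ), x ∉ nn → x ^ k ∉ nn := fun k hx hxk =>
    hx (hprime.mem_of_pow_mem k hxk)
  rcases T.eq_empty_or_nonempty with rfl | ⟨i0, hi0⟩
  · exact ⟨1, 1, fun h => hprime.ne_top ((Ideal.eq_top_iff_one _).mpr h),
      fun h => hprime.ne_top ((Ideal.eq_top_iff_one _).mpr h), by simp⟩
  set r := T.card - 1 with hr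
  set m := N * r + 1 with hm
  set Q := q ^ m with hQ
  have hQ1 : 1 < Q := Nat.one_lt_pow (by omega) hq.one_lt
  have hQN : N * r ≤ Q := by
    have : m < q ^ m := Nat.lt_pow_self hq.one_lt
    omega
  set g := e * b with hg
  have hgn : g ∉ nn := hmul he hb
  set d : ι → R := fun i => a i - g with hd
  have hdQ : ∀ i ∈ T, d i ^ Q ∈ nn ^ (N * r) := fun i hi =>
    Ideal.pow_le_pow_right hQN (Ideal.pow_mem_pow (ha i hi) Q)
  obtain ⟨z, hz⟩ := exists_conductor nn p T N c hc (fun i => d i ^ Q) hdQ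
  set w := c ^ r * g ^ Q + z with hw
  -- `c ^ r * a i ^ Q ≡ w`
  have hwa : ∀ i ∈ T, c ^ r * a i ^ Q - w ∈ p i := by
    intro i hi
    obtain ⟨ρ, hρ⟩ := exists_add_pow_prime_pow_eq hq g (d i) m
    have hai : a i = g + d i := by simp [hd]
    have : c ^ r * a i ^ Q - w = (q : R) * (c ^ r * (g * d i * ρ)) - (z - c ^ r * d i ^ Q) := by
      rw [hai, hQ, hρ, hw]; ring
    rw [this]
    exact (p i).sub_mem ((p i).mul_mem_right _ (hqp i hi)) (hz i hi)
  have hzn : z ∈ nn := by
    have h1 : z - c ^ r * d i0 ^ Q ∈ nn := hp i0 hi0 (hz i0 hi0)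
    have h2 : c ^ r * d i0 ^ Q ∈ nn :=
      nn.mul_mem_left _ (nn.pow_mem_of_mem (ha i0 hi0) Q (by omega))
    have := nn.add_mem h1 h2
    simpa using this
  have hwn : w ∉ nn := by
    intro h
    have : c ^ r * g ^ Q ∈ nn := by
      have := nn.sub_mem h hzn
      simpa [hw] using this
    exact hmul (hpw r hcn) (hpw Q hgn) this
  -- Bezout
  have hcop : Nat.Coprime n Q := Nat.Coprime.pow_right m hqn
  obtain ⟨al, -, hal⟩ := Nat.exists_mul_mod_eq_one_of_coprime hcop hQ1
  set be := n * al / Q with hbe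
  have hbez : n * al = Q * be + 1 := by
    have := Nat.div_add_mod (n * al) Q
    rw [hal] at this
    exact this.symm
  refine ⟨(c ^ r) ^ be * (t * b ^ n) ^ al, b * (w ^ be * s ^ al),
    hmul (hpw _ (hpw _ hcn)) (hpw _ (hmul ht (hpw _ hb))),
    hmul hb (hmul (hpw _ hwn) (hpw _ hs)), fun i hi => ?_⟩
  rw [← Ideal.Quotient.eq_zero_iff_mem]
  have h1 : Ideal.Quotient.mk (p i) s * Ideal.Quotient.mk (p i) (a i) ^ n
      = Ideal.Quotient.mk (p i) t * Ideal.Quotient.mk (p i) b ^ n := by
    have := Ideal.Quotient.eq_zero_iff_mem.mpr (hpow i hi)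
    simpa [sub_eq_zero] using this
  have h2 : Ideal.Quotient.mk (p i) c ^ r * Ideal.Quotient.mk (p i) (a i) ^ Q
      = Ideal.Quotient.mk (p i) w := by
    have := Ideal.Quotient.eq_zero_iff_mem.mpr (hwa i hi)
    simpa [sub_eq_zero] using this
  simp only [map_sub, map_mul, map_pow]
  rw [← h2, ← h1, sub_eq_zero]
  generalize Ideal.Quotient.mk (p i) (a i) = A
  generalize Ideal.Quotient.mk (p i) b = B
  generalize Ideal.Quotient.mk (p i) c = C
  generalize Ideal.Quotient.mk (p i) s = S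
  have e1 : A * (B * ((C ^ r * A ^ Q) ^ be * S ^ al))
      = B * ((C ^ r) ^ be * S ^ al * A ^ (Q * be + 1)) := by ring
  have e2 : B * ((C ^ r) ^ be * (S * A ^ n) ^ al)
      = B * ((C ^ r) ^ be * S ^ al * A ^ (n * al)) := by ring
  rw [e1, e2, hbez]

end Abstract

section Field

variable {F : Type*} [Field F]

theorem mul_mem_nonunits (A : ValuationSubring F) {x y : F} (hx : x ∈ A) (hy : y ∈ A.nonunits) :
    x * y ∈ A.nonunits := by
  rw [ValuationSubring.mem_nonunits_iff] at hy ⊢
  rw [map_mul]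
  exact lt_of_le_of_lt (mul_le_of_le_one_left' ((A.valuation_le_one_iff x).mpr hx)) hy

theorem valuation_eq_one_of_mem (A : ValuationSubring F) {x : F} (hx : x ∈ A)
    (hx' : x ∉ A.nonunits) : A.valuation x = 1 := by
  rw [ValuationSubring.mem_nonunits_iff, not_lt] at hx'
  exact le_antisymm ((A.valuation_le_one_iff x).mpr hx) hx'

theorem mem_nonunits_of_mul (A : ValuationSubring F) {x y : F} (hx : A.valuation x = 1)
    (hxy : x * y ∈ A.nonunits) : y ∈ A.nonunits := by
  rw [ValuationSubring.mem_nonunits_iff] at hxy ⊢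
  rwa [map_mul, hx, one_mul] at hxy

theorem pow_sub_pow_mem_nonunits (A : ValuationSubring F) {x y : F} (hx : x ∈ A) (hy : y ∈ A)
    (h : x - y ∈ A.nonunits) (n : ℕ) : x ^ n - y ^ n ∈ A.nonunits := by
  obtain ⟨k, hk⟩ := sub_dvd_pow_sub_pow (⟨x, hx⟩ : A) ⟨y, hy⟩ n
  have hk' : x ^ n - y ^ n = (k : F) * (x - y) := by
    have := congrArg (fun z : A => (z : F)) hk
    simp only [AddSubgroupClass.coe_sub, SubmonoidClass.coe_pow, MulMemClass.coe_mul] at this
    rw [this]; ring
  rw [hk']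
  exact mul_mem_nonunits A k.2 h

/-- The centre on `R` of a valuation ring `W ⊇ R`. -/
def centre (R : Subring F) (W : ValuationSubring F) (hRW : ∀ x : R, (x : F) ∈ W) : Ideal R where
  carrier := {x | (x : F) ∈ W.nonunits}
  add_mem' := fun {_ _} ha hb => W.nonunits.add_mem ha hb
  zero_mem' := W.nonunits.zero_mem
  smul_mem' := fun c _ hx => mul_mem_nonunits W (hRW c) hx

theorem mem_centre {R : Subring F} {W : ValuationSubring F} {hRW : ∀ x : R, (x : F) ∈ W} {x : R} :
    x ∈ centre R W hRW ↔ (x : F) ∈ W.nonunits := Iff.rfl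

/-- The branch `W` passes through the point `nn` of `R`. -/
def Thr (R : Subring F) (nn : Ideal R) (W : ValuationSubring F) : Prop :=
  ∀ x : R, (x : F) ∈ W.nonunits → x ∈ nn

/-- **(d) ⇒ (b)**.  `R ⊆ F` a subring, `nn` a prime (in the application: maximal) ideal, `W i` finitely
many valuation rings of `F` containing `R`, of residue characteristic `q` prime to `n`.
Locally at `nn`: `f = (t / s) G ^ n`; `h` is a unit of the branches through `nn` with
`h ^ n ≡ f`; two different branches through `nn` meet only at `nn` (`hcond`).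
If `h / G` is, along each branch through `nn`, congruent to a fraction `a / b` with value `e` at
`nn` (the same for all branches), then ONE fraction `u1 / u2` is congruent to `h / G` along all the
branches through `nn`. -/
theorem formB_of_formD (R : Subring F) (nn : Ideal R) [nn.IsPrime]
    {ι : Type*} [Finite ι] (W : ι → ValuationSubring F) (hRW : ∀ i, ∀ x : R, (x : F) ∈ W i)
    (q n : ℕ) (hq : q.Prime) (hqn : n.Coprime q)
    (hqW : ∀ i, Thr R nn (W i) → (q : F) ∈ (W i).nonunits)
    (f h G : F)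
    (hfac : ∃ s t : R, s ∉ nn ∧ t ∉ nn ∧ f * s = G ^ n * t)
    (hh : ∀ i, Thr R nn (W i) → h ∈ W i ∧ h ∉ (W i).nonunits)
    (hfh : ∀ i, Thr R nn (W i) → f - h ^ n ∈ (W i).nonunits)
    (hcond : ∀ i j, Thr R nn (W i) → Thr R nn (W j) → i ≠ j →
      ∃ (N : ℕ) (c : R), c ∉ nn ∧ ∀ x ∈ nn ^ N, ∃ al be : R, c * x = al + be ∧
        (al : F) ∈ (W i).nonunits ∧ (be : F) ∈ (W j).nonunits)
    (hD : ∃ e : R, e ∉ nn ∧ ∀ i, Thr R nn (W i) →
      ∃ a b : R, b ∉ nn ∧ h * b - G * a ∈ (W i).nonunits ∧ a - e * b ∈ nn) :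
    ∃ u1 u2 : R, u1 ∉ nn ∧ u2 ∉ nn ∧
      ∀ i, Thr R nn (W i) → h * u2 - G * u1 ∈ (W i).nonunits := by
  classical
  cases nonempty_fintype ι
  have hprime : nn.IsPrime := inferInstance
  obtain ⟨s, t, hs, ht, hst⟩ := hfac
  obtain ⟨e, he, hD⟩ := hD
  choose! a0 b0 hb0 hab0 hae0 using hD
  choose! N0 c0 hc0 hc0' using hcond
  set T : Finset ι := Finset.univ.filter (fun i => Thr R nn (W i)) with hT
  have memT : ∀ {i}, i ∈ T ↔ Thr R nn (W i) := by intro i; simp [hT]
  set p : ι → Ideal R := fun i => centre R (W i) (hRW i) with hp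
  -- common denominator
  set b : R := ∏ j ∈ T, b0 j with hb
  set cof : ι → R := fun i => ∏ j ∈ T.erase i, b0 j with hcof
  set a : ι → R := fun i => a0 i * cof i with ha
  have hbcof : ∀ i ∈ T, b = b0 i * cof i := fun i hi => (Finset.mul_prod_erase T b0 hi).symm
  have hbn : b ∉ nn := by
    intro hmem
    obtain ⟨j, hj, hj'⟩ := (Ideal.IsPrime.prod_mem_iff).mp hmem
    exact hb0 j (memT.mp hj) hj'
  have hae : ∀ i ∈ T, a i - e * b ∈ nn := by
    intro i hi
    have : a i - e * b = (a0 i - e * b0 i) * cof i := by rw [hbcof i hi, ha]; ring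
    rw [this]
    exact nn.mul_mem_right _ (hae0 i (memT.mp hi))
  have hab : ∀ i ∈ T, h * b - G * a i ∈ (W i).nonunits := by
    intro i hi
    have : h * (b : F) - G * (a i : F) = (cof i : F) * (h * b0 i - G * a0 i) := by
      rw [hbcof i hi, ha]; push_cast; ring
    rw [this]
    exact mul_mem_nonunits _ (hRW i _) (hab0 i (memT.mp hi))
  -- uniform conductor data
  set N : ℕ := ∑ x ∈ T.offDiag, N0 x.1 x.2 with hN
  set c : R := ∏ x ∈ T.offDiag, c0 x.1 x.2 with hc
  have hcn : c ∉ nn := by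
    intro hmem
    obtain ⟨x, hx, hx'⟩ := (Ideal.IsPrime.prod_mem_iff).mp hmem
    obtain ⟨h1, h2, h3⟩ := Finset.mem_offDiag.mp hx
    exact hc0 x.1 x.2 (memT.mp h1) (memT.mp h2) h3 hx'
  have hcond' : ∀ i ∈ T, ∀ j ∈ T, i ≠ j → ∀ x ∈ nn ^ N, c * x ∈ p i ⊔ p j := by
    intro i hi j hj hij x hx
    have hmem : (i, j) ∈ T.offDiag := Finset.mem_offDiag.mpr ⟨hi, hj, hij⟩
    have hle : N0 i j ≤ N :=
      Finset.single_le_sum (f := fun x : ι × ι => N0 x.1 x.2) (fun _ _ => Nat.zero_le _) hmem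
    obtain ⟨al, be, hsum, hal, hbe⟩ := hc0' i j (memT.mp hi) (memT.mp hj) hij x
      (Ideal.pow_le_pow_right hle hx)
    have hcfac : c = c0 i j * ∏ y ∈ T.offDiag.erase (i, j), c0 y.1 y.2 :=
      (Finset.mul_prod_erase T.offDiag (fun y : ι × ι => c0 y.1 y.2) hmem).symm
    have : c * x = (∏ y ∈ T.offDiag.erase (i, j), c0 y.1 y.2) * (al + be) := by
      rw [← hsum, hcfac]; ring
    rw [this]
    refine Ideal.mul_mem_left _ _ (Submodule.add_mem_sup ?_ ?_)
    · exact hal
    · exact hbe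
  -- units
  have hunit : ∀ i ∈ T, ∀ x : R, x ∉ nn → (W i).valuation (x : F) = 1 := fun i hi x hx =>
    valuation_eq_one_of_mem _ (hRW i x) (fun hmem => hx (memT.mp hi x hmem))
  have han : ∀ i ∈ T, a i ∉ nn := by
    intro i hi hmem
    have : e * b ∈ nn := by
      have := nn.sub_mem hmem (hae i hi)
      simpa using this
    exact (hprime.mem_or_mem this).elim he hbn
  have hGa : ∀ i ∈ T, G * a i ∈ W i ∧ (W i).valuation (G * a i) = 1 := by
    intro i hi
    have hX : h * (b : F) ∈ W i := (W i).mul_mem _ _ (hh i (memT.mp hi)).1 (hRW i b)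
    have hXv : (W i).valuation (h * (b : F)) = 1 := by
      rw [map_mul, hunit i hi b hbn,
        valuation_eq_one_of_mem _ (hh i (memT.mp hi)).1 (hh i (memT.mp hi)).2, one_mul]
    have hY : G * (a i : F) ∈ W i := by
      have h1 : h * (b : F) - G * a i ∈ W i := (W i).nonunits_subset (hab i hi)
      have : G * (a i : F) = h * b - (h * b - G * a i) := by ring
      rw [this]
      exact (W i).toSubring.sub_mem hX h1
    refine ⟨hY, valuation_eq_one_of_mem _ hY (fun hmem => ?_)⟩
    have : h * (b : F) ∈ (W i).nonunits := by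
      have h2 := (W i).nonunits.add_mem (hab i hi) hmem
      simpa using h2
    rw [ValuationSubring.mem_nonunits_iff, hXv] at this
    exact lt_irrefl _ this
  have hGv : ∀ i ∈ T, (W i).valuation G = 1 := by
    intro i hi
    have := (hGa i hi).2
    rwa [map_mul, hunit i hi _ (han i hi), mul_one] at this
  have hpow : ∀ i ∈ T, s * a i ^ n - t * b ^ n ∈ p i := by
    intro i hi
    rw [hp]
    change ((s * a i ^ n - t * b ^ n : R) : F) ∈ (W i).nonunits
    have hX : h * (b : F) ∈ W i := (W i).mul_mem _ _ (hh i (memT.mp hi)).1 (hRW i b)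
    have h1 : (h * (b : F)) ^ n - (G * a i) ^ n ∈ (W i).nonunits :=
      pow_sub_pow_mem_nonunits _ hX (hGa i hi).1 (hab i hi) n
    have h2 : ((b : F) ^ n) * (f - h ^ n) ∈ (W i).nonunits :=
      mul_mem_nonunits _ (pow_mem (hRW i b) n) (hfh i (memT.mp hi))
    have h3 : (s : F) * ((h * (b : F)) ^ n - (G * a i) ^ n + ((b : F) ^ n) * (f - h ^ n))
        ∈ (W i).nonunits :=
      mul_mem_nonunits _ (hRW i s) ((W i).nonunits.add_mem h1 h2)
    have h4 : (s : F) * ((h * (b : F)) ^ n - (G * a i) ^ n + ((b : F) ^ n) * (f - h ^ n))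
        = G ^ n * -((s * a i ^ n - t * b ^ n : R) : F) := by
      push_cast
      have : (s : F) * ((h * (b : F)) ^ n - (G * a i) ^ n + ((b : F) ^ n) * (f - h ^ n))
          = (f * s) * (b : F) ^ n - G ^ n * (s * (a i : F) ^ n) := by ring
      rw [this, hst]; ring
    rw [h4] at h3
    have h5 := mem_nonunits_of_mul (W i) (by rw [map_pow, hGv i hi, one_pow]) h3
    have h6 := (W i).nonunits.neg_mem h5
    simpa using h6
  obtain ⟨u1, u2, hu1, hu2, hu⟩ := exists_common_fraction nn p T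
    (fun i hi x hx => memT.mp hi x hx) q n hq hqn
    (fun i hi => by
      rw [hp]
      change ((q : R) : F) ∈ (W i).nonunits
      simpa using hqW i (memT.mp hi))
    N c hcn hcond' a b e s t hbn he hs ht hae hpow
  refine ⟨u1, u2, hu1, hu2, fun i hi => ?_⟩
  have hiT : i ∈ T := memT.mpr hi
  have h1 : (u2 : F) * (h * b - G * a i) ∈ (W i).nonunits :=
    mul_mem_nonunits _ (hRW i u2) (hab i hiT)
  have hGW : G ∈ W i := (W i).mem_of_valuation_le_one G (hGv i hiT).le
  have h2 : G * ((a i * u2 - b * u1 : R) : F) ∈ (W i).nonunits :=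
    mul_mem_nonunits _ hGW (hu i hiT)
  have h3 := (W i).nonunits.add_mem h1 h2
  have h4 : (u2 : F) * (h * b - G * a i) + G * ((a i * u2 - b * u1 : R) : F)
      = (b : F) * (h * u2 - G * u1) := by push_cast; ring
  rw [h4] at h3
  exact mem_nonunits_of_mul (W i) (hunit i hiT b hbn) h3

end Field

end Fermat.Agent.S36R.Inj
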