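import Fermat.Agent.S36R.Inj.Main
import Fermat.Agent.S36R.Inj.Conductor

/-!
# S36 route R, block (7) `INJ_reg`: the main theorem with the local hypothesis in form (d)  (helper54)

* `Cond W 𝔫` : two different components through `𝔫` meet (locally) only at `𝔫`;
  `cond_of_isNoetherianRing` deduces it from: `R` noetherian, the components are one dimensional at `𝔫`
  and pairwise not contained in each other.
* `LocalRootD` : the local hypothesis in form (d): `f = ε G ^ n`, and along every component through `𝔫` the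
  function `h / G` is a fraction of elements of `R` whose value at `𝔫` does not depend on the component.
* `localRoot_of_localRootD : LocalRootD → LocalRoot` and `inj_reg_D`.
-/

set_option autoImplicit false
set_option maxHeartbeats 400000

namespace Fermat.Agent.S36R.Inj

section Abstract

variable {R : Type*} [CommRing R]

/-- If `𝔫` is the only prime between `I` and `𝔫`, then locally at `𝔫` a power of `𝔫` lies in `I`. -/
theorem exists_pow_mul_mem [IsNoetherianRing R] (𝔫 : Ideal R) [h𝔫 : 𝔫.IsPrime] (I : Ideal R)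
    (hI : ∀ P : Ideal R, P.IsPrime → I ≤ P → P ≤ 𝔫 → P = 𝔫) :
    ∃ (N : ℕ) (c : R), c ∉ 𝔫 ∧ ∀ x ∈ 𝔫 ^ N, c * x ∈ I := by
  classical
  -- the saturation of `I`
  let I' : Ideal R :=
    { carrier := {x | ∃ c : R, c ∉ 𝔫 ∧ c * x ∈ I}
      add_mem' := by
        rintro a b ⟨c, hc, ha⟩ ⟨d, hd, hb⟩
        refine ⟨c * d, h𝔫.mul_notMem hc hd, ?_⟩
        have : c * d * (a + b) = d * (c * a) + c * (d * b) := by ring
        rw [this]
        exact I.add_mem (I.mul_mem_left _ ha) (I.mul_mem_left _ hb)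
      zero_mem' := ⟨1, (Ideal.ne_top_iff_one 𝔫).1 h𝔫.ne_top, by simp⟩
      smul_mem' := by
        rintro r a ⟨c, hc, ha⟩
        refine ⟨c, hc, ?_⟩
        have : c * (r • a) = r * (c * a) := by rw [smul_eq_mul]; ring
        rw [this]
        exact I.mul_mem_left _ ha }
  have hII' : I ≤ I' := fun x hx => ⟨1, (Ideal.ne_top_iff_one 𝔫).1 h𝔫.ne_top, by simpa using hx⟩
  have hrad : 𝔫 ≤ I'.radical := by
    intro x hx
    by_contra hxr
    let S : Submonoid R := 𝔫.primeCompl ⊔ Submonoid.powers x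
    have hdisj : Disjoint (I' : Set R) S := by
      rw [Set.disjoint_left]
      rintro y ⟨c', hc', hy⟩ hyS
      obtain ⟨c, hc, z, ⟨k, rfl⟩, rfl⟩ := Submonoid.mem_sup.mp hyS
      apply hxr
      refine ⟨k, c' * c, h𝔫.mul_notMem hc' hc, ?_⟩
      rw [mul_assoc]; exact hy
    obtain ⟨P, hP, hIP, hPS⟩ := Ideal.exists_le_prime_disjoint I' S hdisj
    have hP𝔫 : P ≤ 𝔫 := by
      intro y hy
      by_contra hy𝔫
      exact Set.disjoint_left.mp hPS hy
        ((le_sup_left : 𝔫.primeCompl ≤ S) hy𝔫)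
    have := hI P hP (hII'.trans hIP) hP𝔫
    have hxP : x ∈ P := by rw [this]; exact hx
    exact Set.disjoint_left.mp hPS hxP
      ((le_sup_right : Submonoid.powers x ≤ S) (Submonoid.mem_powers x))
  obtain ⟨N, hN⟩ := Ideal.exists_pow_le_of_le_radical_of_fg hrad (IsNoetherian.noetherian 𝔫)
  obtain ⟨s, hs⟩ := (IsNoetherian.noetherian (𝔫 ^ N) : (𝔫 ^ N).FG)
  have hs' : ∀ y ∈ s, ∃ c : R, c ∉ 𝔫 ∧ c * y ∈ I := fun y hy =>
    hN (hs ▸ Ideal.subset_span hy)
  choose! cy hcy hcy' using hs'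
  refine ⟨N, ∏ y ∈ s, cy y, ?_, ?_⟩
  · intro hmem
    obtain ⟨y, hy, hy'⟩ := (Ideal.IsPrime.prod_mem_iff).mp hmem
    exact hcy y hy hy'
  · intro x hx
    rw [← hs] at hx
    induction hx using Submodule.span_induction with
    | mem y hy =>
      rw [← Finset.mul_prod_erase s cy hy]
      have : (cy y * ∏ z ∈ s.erase y, cy z) * y = (∏ z ∈ s.erase y, cy z) * (cy y * y) := by ring
      rw [this]
      exact I.mul_mem_left _ (hcy' y hy)
    | zero => simp
    | add a b _ _ ha hb => rw [mul_add]; exact I.add_mem ha hb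
    | smul r a _ ha =>
      have : (∏ y ∈ s, cy y) * (r • a) = r * ((∏ y ∈ s, cy y) * a) := by rw [smul_eq_mul]; ring
      rw [this]
      exact I.mul_mem_left _ ha

end Abstract

variable {O : Type*} [CommRing O] {F : Type*} [Field F] [Algebra O F] {ι : Type*}

/-- Two different components through `𝔫` meet, locally at `𝔫`, only at `𝔫`:
`c 𝔫 ^ N ⊆ p i + p j` with `c ∉ 𝔫`. -/
def Cond (W : ι → ValuationSubring F) {R : Subring F} (𝔫 : Ideal R) : Prop :=
  ∀ i j, Thru W 𝔫 i → Thru W 𝔫 j → i ≠ j →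
    ∃ (N : ℕ) (c : R), c ∉ 𝔫 ∧ ∀ x ∈ 𝔫 ^ N, ∃ al be : R, c * x = al + be ∧
      (W i).valuation (al : F) < 1 ∧ (W j).valuation (be : F) < 1

/-- `Cond` from noetherianity + dimension one of the components at `𝔫` + incomparability. -/
theorem cond_of_isNoetherianRing {W : ι → ValuationSubring F} {R : Subring F} [IsNoetherianRing R]
    (hle : ∀ i, ∀ x : R, (x : F) ∈ W i) (𝔫 : Ideal R) [𝔫.IsPrime]
    (hdim : ∀ i, Thru W 𝔫 i → ∀ P : Ideal R, P.IsPrime →
      (∀ x : R, (W i).valuation (x : F) < 1 → x ∈ P) → P ≤ 𝔫 →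
        (∀ x ∈ P, (W i).valuation (x : F) < 1) ∨ P = 𝔫)
    (hne : ∀ i j, Thru W 𝔫 i → Thru W 𝔫 j → i ≠ j →
      ∃ x : R, (W j).valuation (x : F) < 1 ∧ ¬ (W i).valuation (x : F) < 1) :
    Cond W 𝔫 := by
  intro i j hi hj hij
  obtain ⟨N, c, hc, hN⟩ := exists_pow_mul_mem 𝔫 (centre R (W i) (hle i) ⊔ centre R (W j) (hle j))
    (by
      intro P hP hIP hP𝔫
      rcases hdim i hi P hP (fun x hx => hIP (Ideal.mem_sup_left hx)) hP𝔫 with h | h
      · exfalso
        obtain ⟨x, hxj, hxi⟩ := hne i j hi hj hij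
        exact hxi (h x (hIP (Ideal.mem_sup_right hxj)))
      · exact h)
  refine ⟨N, c, hc, fun x hx => ?_⟩
  obtain ⟨al, hal, be, hbe, hsum⟩ := Submodule.mem_sup.mp (hN x hx)
  exact ⟨al, be, hsum.symm, hal, hbe⟩

/-- **The local hypothesis (form (d)).** At every closed point `𝔫` of the special fibre of the chart `R`:
the components through `𝔫` meet only at `𝔫`; `f = ε G ^ n` with `ε = t / s` a unit at `𝔫`; along every
component `W i` through `𝔫` the function `h / G` is congruent to a fraction `a / b` (`b ∉ 𝔫`), whose value at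
`𝔫` is `e`, THE SAME for all the components. -/
def LocalRootD (π : O) (W : ι → ValuationSubring F) (R : Subring F) (n : ℕ) (f h : F) : Prop :=
  ∀ 𝔫 : Ideal R, 𝔫.IsMaximal → (∀ x : R, (x : F) = algebraMap O F π → x ∈ 𝔫) →
    Cond W 𝔫 ∧ ∃ G : F, G ≠ 0 ∧ (∃ s t : R, s ∉ 𝔫 ∧ t ∉ 𝔫 ∧ f * s = G ^ n * t) ∧
      ∃ e : R, e ∉ 𝔫 ∧ ∀ i, Thru W 𝔫 i →
        ∃ a b : R, b ∉ 𝔫 ∧ (W i).valuation (h * b - G * a) < 1 ∧ a - e * b ∈ 𝔫

/-- **(d) ⇒ (b).** -/
theorem localRoot_of_localRootD [Finite ι] {π : O} {W : ι → ValuationSubring F} {R : Subring F}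
    (hle : ∀ i, ∀ z ∈ R, z ∈ W i) {q n : ℕ} (hq : q.Prime) (hqn : n.Coprime q) (hn : 0 < n)
    (hqW : ∀ i, (W i).valuation (q : F) < 1) {f h : F}
    (hf : ∀ i, (W i).valuation f = 1) (hh : ∀ i, (W i).valuation (f - h ^ n) < 1)
    (loc : LocalRootD π W R n f h) : LocalRoot π W R n f h := by
  intro 𝔫 h𝔫 hπ
  have := h𝔫.isPrime
  obtain ⟨hcond, G, hG, ⟨s, t, hs, ht, hst⟩, hD⟩ := loc 𝔫 h𝔫 hπ
  have hhv : ∀ i, (W i).valuation h = 1 := by
    intro i
    have h1 : (W i).valuation (h ^ n) = 1 := by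
      have h2 : h ^ n = f - (f - h ^ n) := by ring
      rw [h2, Valuation.map_sub_eq_of_lt_left _ (by rw [hf i]; exact hh i), hf i]
    rw [map_pow] at h1
    exact (pow_eq_one_iff.mp h1).resolve_right hn.ne'
  obtain ⟨u1, u2, hu1, hu2, hu⟩ := formB_of_formD R 𝔫 W (fun i x => hle i x x.2) q n hq hqn
    (fun i _ => hqW i) f h G ⟨s, t, hs, ht, hst⟩
    (fun i _ => ⟨(W i).mem_of_valuation_le_one h (hhv i).le, fun hmem => by
      rw [ValuationSubring.mem_nonunits_iff, hhv i] at hmem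
      exact lt_irrefl _ hmem⟩)
    (fun i _ => hh i) hcond hD
  have hne : ∀ x : R, x ∉ 𝔫 → (x : F) ≠ 0 := by
    intro x hx h0
    apply hx
    have : x = 0 := Subtype.ext h0
    rw [this]; exact zero_mem _
  have hu1' := hne u1 hu1
  have hu2' := hne u2 hu2
  refine ⟨G * u1 * (u2 : F)⁻¹, mul_ne_zero (mul_ne_zero hG hu1') (inv_ne_zero hu2'),
    ⟨s * u1 ^ n, t * u2 ^ n, Ideal.IsPrime.mul_notMem ‹_› hs
      (fun hmem => hu1 (Ideal.IsPrime.mem_of_pow_mem ‹_› n hmem)),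
      Ideal.IsPrime.mul_notMem ‹_› ht (fun hmem => hu2 (Ideal.IsPrime.mem_of_pow_mem ‹_› n hmem)),
      ?_⟩, ?_⟩
  · push_cast
    have : f * ((s : F) * (u1 : F) ^ n) = (f * s) * (u1 : F) ^ n := by ring
    rw [this, hst, mul_pow, mul_pow, inv_pow]
    have h0 : (u2 : F) ^ n ≠ 0 := pow_ne_zero n hu2'
    field_simp
  · intro i hi
    have h1 : (W i).valuation (h * u2 - G * u1) < 1 := hu i hi
    have h2 : (W i).valuation (u2 : F) = 1 :=
      valuation_eq_one_of_mem _ (hle i u2 u2.2) (fun hmem => hu2 (hi u2 hmem))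
    have h3 : h - G * u1 * (u2 : F)⁻¹ = (h * u2 - G * u1) * (u2 : F)⁻¹ := by
      field_simp
    rw [h3, map_mul, map_inv₀, h2, inv_one, mul_one]
    exact h1

/-- **INJ_reg, form (d).** -/
theorem inj_reg_D [IsNoetherianRing O] [Finite ι] [Nonempty ι] {π : O} {W : ι → ValuationSubring F}
    {E : ℕ} (hV : Vert π W E) {c : F} (hc : c ≠ 0) {R₀ R₁ : Subring F}
    (h₀ : Chart π W c R₀) (h₁ : Chart π W c⁻¹ R₁)
    (sh₀ : ∀ z ∈ R₀, ∃ k : ℕ, c⁻¹ ^ k * z ∈ R₁) (sh₁ : ∀ z ∈ R₁, ∃ k : ℕ, c ^ k * z ∈ R₀)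
    {q n : ℕ} (hq : q.Prime) (hqn : n.Coprime q) (hqW : ∀ i, (W i).valuation (q : F) < 1)
    (hn : 0 < n) (hnO : IsUnit (n : O)) {f h : F}
    (hf : ∀ i, (W i).valuation f = 1) (hh : ∀ i, (W i).valuation (f - h ^ n) < 1)
    (loc₀ : LocalRootD π W R₀ n f h) (loc₁ : LocalRootD π W R₁ n f h) :
    ∃ Φ : F, Φ ≠ 0 ∧ Φ ^ n * f⁻¹ ∈ R₀ ∧ Φ ^ n * f⁻¹ ∈ R₁ :=
  inj_reg hV hc h₀ h₁ sh₀ sh₁ hn hnO hf hh
    (localRoot_of_localRootD h₀.le_W hq hqn hn hqW hf hh loc₀)
    (localRoot_of_localRootD h₁.le_W hq hqn hn hqW hf hh loc₁)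

end Fermat.Agent.S36R.Inj
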