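import Fermat.Agent.S36R.Inj.Shift

/-!
# S36 route R, block (7): transfer of the local hypothesis between the two charts

`LocalRoot` is a statement about local rings only.  A maximal ideal `𝔫` of `R₁` which does not contain `c⁻¹`
"is" a point of the chart `R₀`.  So the local hypothesis on `R₁` is only needed at the points with `c⁻¹ ∈ 𝔫`
(in the application: the cusps of the special fibre).

* `LocalRootAt W 𝔫 n f h` : the conclusion of `LocalRoot` at one point;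
* `localRootAt_transfer` : from `LocalRoot` on `R₀` to `LocalRootAt` at the points of `R₁` with `c⁻¹ ∉ 𝔫`;
* `inj_reg_cusp`, `inj_reg_D_cusp` : `INJ_reg` with the local hypothesis on `R₁` at the points `c⁻¹ ∈ 𝔫` only.
-/

set_option autoImplicit false
set_option maxHeartbeats 400000

namespace Fermat.Agent.S36R.Inj

variable {O : Type*} [CommRing O] {F : Type*} [Field F] [Algebra O F] {ι : Type*}

/-- the conclusion of `LocalRoot` at the point `𝔫`. -/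
def LocalRootAt (W : ι → ValuationSubring F) {R : Subring F} (𝔫 : Ideal R) (n : ℕ) (f h : F) : Prop :=
  ∃ g : F, g ≠ 0 ∧ (∃ s t : R, s ∉ 𝔫 ∧ t ∉ 𝔫 ∧ f * s = g ^ n * t) ∧
    ∀ i, Thru W 𝔫 i → (W i).valuation (h - g) < 1

theorem localRoot_iff {π : O} {W : ι → ValuationSubring F} {R : Subring F} {n : ℕ} {f h : F} :
    LocalRoot π W R n f h ↔ ∀ 𝔫 : Ideal R, 𝔫.IsMaximal →
      (∀ x : R, (x : F) = algebraMap O F π → x ∈ 𝔫) → LocalRootAt W 𝔫 n f h := Iff.rfl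

/-- the exponent in `sh₀` can be increased. -/
theorem Transfer_shift_mono {d : F} {R' : Subring F} (hd : d ∈ R') {z : F} {k : ℕ}
    (hk : d ^ k * z ∈ R') {m : ℕ} (hm : k ≤ m) : d ^ m * z ∈ R' := by
  obtain ⟨e, rfl⟩ := Nat.exists_eq_add_of_le hm
  rw [pow_add, mul_comm (d ^ k), mul_assoc]
  exact mul_mem (pow_mem hd e) hk

/-- **Transfer.** -/
theorem localRootAt_transfer {π : O} {W : ι → ValuationSubring F} {c : F} {R₀ R₁ : Subring F}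
    (h₁ : Chart π W c⁻¹ R₁) (sh₀ : ∀ z ∈ R₀, ∃ k : ℕ, c⁻¹ ^ k * z ∈ R₁) {n : ℕ} {f h : F}
    (loc₀ : LocalRoot π W R₀ n f h) (𝔫 : Ideal R₁) (h𝔫 : 𝔫.IsMaximal)
    (hπ : ∀ x : R₁, (x : F) = algebraMap O F π → x ∈ 𝔫)
    (hc𝔫 : (⟨c⁻¹, h₁.c_mem⟩ : R₁) ∉ 𝔫) : LocalRootAt W 𝔫 n f h := by
  have hprime := h𝔫.isPrime
  set d : R₁ := ⟨c⁻¹, h₁.c_mem⟩ with hd
  have hdk : ∀ k : ℕ, d ^ k ∉ 𝔫 := fun k hk => hc𝔫 (hprime.mem_of_pow_mem k hk)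
  -- the contraction of `𝔫` to `R₀`
  let 𝔫' : Ideal R₀ :=
    { carrier := {z | ∃ (k : ℕ) (y : R₁), y ∈ 𝔫 ∧ (y : F) = c⁻¹ ^ k * z}
      add_mem' := by
        rintro a b ⟨k, y, hy, ey⟩ ⟨l, y', hy', ey'⟩
        refine ⟨k + l, d ^ l * y + d ^ k * y',
          𝔫.add_mem (𝔫.mul_mem_left _ hy) (𝔫.mul_mem_left _ hy'), ?_⟩
        push_cast
        rw [ey, ey', pow_add]
        ring
      zero_mem' := ⟨0, 0, 𝔫.zero_mem, by simp⟩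
      smul_mem' := by
        rintro r a ⟨k, y, hy, ey⟩
        obtain ⟨l, hl⟩ := sh₀ r r.2
        refine ⟨l + k, ⟨_, hl⟩ * y, 𝔫.mul_mem_left _ hy, ?_⟩
        push_cast
        rw [ey, pow_add, smul_eq_mul]
        push_cast
        ring }
  have hmem' : ∀ z : R₀, z ∈ 𝔫' ↔ ∃ (k : ℕ) (y : R₁), y ∈ 𝔫 ∧ (y : F) = c⁻¹ ^ k * z := fun _ => Iff.rfl
  have hne : 𝔫' ≠ ⊤ := by
    intro htop
    have h1 : (1 : R₀) ∈ 𝔫' := by rw [htop]; trivial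
    obtain ⟨k, y, hy, ey⟩ := (hmem' 1).1 h1
    apply hdk k
    have : y = d ^ k := Subtype.ext (by rw [ey]; simp [hd])
    rwa [← this]
  obtain ⟨𝔪, h𝔪, hle⟩ := Ideal.exists_le_maximal 𝔫' hne
  obtain ⟨g, hg, ⟨s, t, hs, ht, hst⟩, hgh⟩ := loc₀ 𝔪 h𝔪 (by
    intro x hx
    apply hle
    refine (hmem' x).2 ⟨0, ⟨algebraMap O F π, h₁.algebraMap_mem π⟩, hπ _ rfl, ?_⟩
    simp [hx])
  obtain ⟨k₁, hk₁⟩ := sh₀ s s.2
  obtain ⟨k₂, hk₂⟩ := sh₀ t t.2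
  have hs' := Transfer_shift_mono h₁.c_mem hk₁ (le_max_left k₁ k₂)
  have ht' := Transfer_shift_mono h₁.c_mem hk₂ (le_max_right k₁ k₂)
  refine ⟨g, hg, ⟨⟨_, hs'⟩, ⟨_, ht'⟩, ?_, ?_, ?_⟩, ?_⟩
  · intro hmem
    exact hs (hle ((hmem' s).2 ⟨_, _, hmem, rfl⟩))
  · intro hmem
    exact ht (hle ((hmem' t).2 ⟨_, _, hmem, rfl⟩))
  · show f * (c⁻¹ ^ max k₁ k₂ * s) = g ^ n * (c⁻¹ ^ max k₁ k₂ * t)
    linear_combination (c⁻¹ ^ max k₁ k₂) * hst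
  · intro i hi
    apply hgh i
    intro x hx
    obtain ⟨k, hk⟩ := sh₀ x x.2
    apply hle
    refine (hmem' x).2 ⟨k, ⟨_, hk⟩, hi _ ?_, rfl⟩
    show (W i).valuation (c⁻¹ ^ k * x) < 1
    rw [map_mul, map_pow]
    have h1 : (W i).valuation c⁻¹ ≤ 1 :=
      (ValuationSubring.valuation_le_one_iff _ _).2 (h₁.le_W i _ h₁.c_mem)
    calc (W i).valuation c⁻¹ ^ k * (W i).valuation (x : F)
        ≤ 1 * (W i).valuation (x : F) := by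
          gcongr
          exact pow_le_one₀ zero_le' h1
      _ < 1 := by rw [one_mul]; exact hx

/-- `LocalRoot` on `R₁` from `LocalRoot` on `R₀` and the points with `c⁻¹ ∈ 𝔫`. -/
theorem localRoot_of_cusp {π : O} {W : ι → ValuationSubring F} {c : F} {R₀ R₁ : Subring F}
    (h₁ : Chart π W c⁻¹ R₁) (sh₀ : ∀ z ∈ R₀, ∃ k : ℕ, c⁻¹ ^ k * z ∈ R₁) {n : ℕ} {f h : F}
    (loc₀ : LocalRoot π W R₀ n f h)
    (cusp : ∀ 𝔫 : Ideal R₁, 𝔫.IsMaximal → (∀ x : R₁, (x : F) = algebraMap O F π → x ∈ 𝔫) →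
      (∀ x : R₁, (x : F) = c⁻¹ → x ∈ 𝔫) → LocalRootAt W 𝔫 n f h) :
    LocalRoot π W R₁ n f h := by
  intro 𝔫 h𝔫 hπ
  by_cases hc𝔫 : (⟨c⁻¹, h₁.c_mem⟩ : R₁) ∈ 𝔫
  · refine cusp 𝔫 h𝔫 hπ (fun x hx => ?_)
    have : x = ⟨c⁻¹, h₁.c_mem⟩ := Subtype.ext hx
    rwa [this]
  · exact localRootAt_transfer h₁ sh₀ loc₀ 𝔫 h𝔫 hπ hc𝔫

/-- **INJ_reg**, local hypothesis (form (b)) on `R₀` and at the points `c⁻¹ ∈ 𝔫` of `R₁`. -/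
theorem inj_reg_cusp [IsNoetherianRing O] [Finite ι] [Nonempty ι] {π : O}
    {W : ι → ValuationSubring F} {E : ℕ} (hV : Vert π W E) {c : F} (hc : c ≠ 0) {R₀ R₁ : Subring F}
    (h₀ : Chart π W c R₀) (h₁ : Chart π W c⁻¹ R₁)
    (sh₀ : ∀ z ∈ R₀, ∃ k : ℕ, c⁻¹ ^ k * z ∈ R₁) (sh₁ : ∀ z ∈ R₁, ∃ k : ℕ, c ^ k * z ∈ R₀)
    {n : ℕ} (hn : 0 < n) (hnO : IsUnit (n : O)) {f h : F}
    (hf : ∀ i, (W i).valuation f = 1) (hh : ∀ i, (W i).valuation (f - h ^ n) < 1)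
    (loc₀ : LocalRoot π W R₀ n f h)
    (cusp : ∀ 𝔫 : Ideal R₁, 𝔫.IsMaximal → (∀ x : R₁, (x : F) = algebraMap O F π → x ∈ 𝔫) →
      (∀ x : R₁, (x : F) = c⁻¹ → x ∈ 𝔫) → LocalRootAt W 𝔫 n f h) :
    ∃ Φ : F, Φ ≠ 0 ∧ Φ ^ n * f⁻¹ ∈ R₀ ∧ Φ ^ n * f⁻¹ ∈ R₁ :=
  inj_reg hV hc h₀ h₁ sh₀ sh₁ hn hnO hf hh loc₀ (localRoot_of_cusp h₁ sh₀ loc₀ cusp)

/-- **INJ_reg**, local hypothesis in form (d) on `R₀`, and `LocalRootAt` at the points `c⁻¹ ∈ 𝔫` of `R₁`. -/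
theorem inj_reg_D_cusp [IsNoetherianRing O] [Finite ι] [Nonempty ι] {π : O}
    {W : ι → ValuationSubring F} {E : ℕ} (hV : Vert π W E) {c : F} (hc : c ≠ 0) {R₀ R₁ : Subring F}
    (h₀ : Chart π W c R₀) (h₁ : Chart π W c⁻¹ R₁)
    (sh₀ : ∀ z ∈ R₀, ∃ k : ℕ, c⁻¹ ^ k * z ∈ R₁) (sh₁ : ∀ z ∈ R₁, ∃ k : ℕ, c ^ k * z ∈ R₀)
    {q n : ℕ} (hq : q.Prime) (hqn : n.Coprime q) (hqW : ∀ i, (W i).valuation (q : F) < 1)
    (hn : 0 < n) (hnO : IsUnit (n : O)) {f h : F}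
    (hf : ∀ i, (W i).valuation f = 1) (hh : ∀ i, (W i).valuation (f - h ^ n) < 1)
    (loc₀ : LocalRootD π W R₀ n f h)
    (cusp : ∀ 𝔫 : Ideal R₁, 𝔫.IsMaximal → (∀ x : R₁, (x : F) = algebraMap O F π → x ∈ 𝔫) →
      (∀ x : R₁, (x : F) = c⁻¹ → x ∈ 𝔫) → LocalRootAt W 𝔫 n f h) :
    ∃ Φ : F, Φ ≠ 0 ∧ Φ ^ n * f⁻¹ ∈ R₀ ∧ Φ ^ n * f⁻¹ ∈ R₁ :=
  inj_reg_cusp hV hc h₀ h₁ sh₀ sh₁ hn hnO hf hh
    (localRoot_of_localRootD h₀.le_W hq hqn hn hqW hf hh loc₀) cusp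

end Fermat.Agent.S36R.Inj
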