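import Fermat.Agent.S36R.Inj.RootMod

/-!
# S36 route R: weak approximation for finitely many pairwise incomparable valuation rings of a field

Pure Mathlib.  `W : ι → ValuationSubring F`, `ι` finite, `W i ≰ W j` for `i ≠ j`.

* `exists_denominator` (Matsumura 12.2): every `a : F` is `a = x / y` with `x, y ∈ ⋂ W j` and `y` a unit of every
  `W j` containing `a`.
* `exists_idem` : `ε ∈ ⋂ W j`, `ε ≡ 1` at `i`, `ε ≡ 0` at `j ≠ i`.
* `exists_residue_approx` : prescribe the residues: `y i ∈ W i` ⟹ `∃ h, ∀ i, v_i (h - y i) < 1`.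
* with `Vert π W E` and the archimedean property (`∀ z, ∃ N, π ^ N z ∈ W i`):
  `exists_strong_approx` : `∀ y : ι → F, ∀ r, ∃ h, ∀ i, v_i (h - y i) ≤ v_i π ^ r`, and
  `exists_prescribed` : `∀ y : ι → F, (∀ i, y i ≠ 0) → ∃ φ ≠ 0, ∀ i, v_i (φ / y i - 1) < 1`
  (so `v_i φ = v_i (y i)`, with prescribed leading term).
-/

set_option autoImplicit false
set_option maxHeartbeats 400000

namespace Fermat.Agent.S36R.Inj

variable {F : Type*} [Field F] {ι : Type*}

/-- **Leaf WA1.** for a valuation ring `V ∋ a` at most one prime `p` makes `1 + a + ⋯ + a ^ (p-1)` a non unit.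
PROOF. Work in the residue field `κ = IsLocalRing.ResidueField V` with `ā = residue ⟨a, ha⟩`
(`V.valuation x < 1 ↔ residue x = 0` for `x ∈ V`: `ValuationSubring.valuation_lt_one_iff`,
`IsLocalRing.residue_eq_zero_iff`).  `g_p := ∑_{i<p} ā ^ i = 0 = g_{p'}`.  `(ā - 1) g_p = ā ^ p - 1`
(`mul_geom_sum`/`geom_sum_mul`), so `ā ^ p = 1 = ā ^ p'`, so `ā = ā ^ gcd(p,p') = 1` (`pow_gcd_eq_one`,
`Nat.coprime_primes`).  Then `g_p = p`, `g_{p'} = p'` in `κ` (`simp`), and `1 = u p + v p'` (Bezout in `ℤ`: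
`Nat.Coprime`/`Int.isCoprime_iff_gcd_eq_one`/`Nat.isCoprime_iff_coprime`) gives `1 = 0` in `κ`. -/
theorem WeakApprox_bad_prime_unique (V : ValuationSubring F) {a : F} (ha : a ∈ V) {p p' : ℕ}
    (hp : p.Prime) (hp' : p'.Prime) (hne : p ≠ p')
    (h : V.valuation (∑ i ∈ Finset.range p, a ^ i) < 1)
    (h' : V.valuation (∑ i ∈ Finset.range p', a ^ i) < 1) : False := by
  set ā : IsLocalRing.ResidueField V := IsLocalRing.residue V ⟨a, ha⟩ with hā
  have key : ∀ n : ℕ, V.valuation (∑ i ∈ Finset.range n, a ^ i) < 1 →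
      ∑ i ∈ Finset.range n, ā ^ i = 0 := by
    intro n hn
    have h1 : ((∑ i ∈ Finset.range n, (⟨a, ha⟩ : V) ^ i : V) : F) = ∑ i ∈ Finset.range n, a ^ i := by
      push_cast
      rfl
    rw [← h1, ← ValuationSubring.valuation_lt_one_iff, ← IsLocalRing.residue_eq_zero_iff] at hn
    rw [map_sum] at hn
    simpa only [map_pow] using hn
  have hg := key p h
  have hg' := key p' h'
  have e1 : ā ^ p = 1 := by
    have := geom_sum_mul ā p
    rw [hg, zero_mul] at this
    exact (sub_eq_zero.mp this.symm)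
  have e2 : ā ^ p' = 1 := by
    have := geom_sum_mul ā p'
    rw [hg', zero_mul] at this
    exact (sub_eq_zero.mp this.symm)
  have hcop : Nat.Coprime p p' := (Nat.coprime_primes hp hp').2 hne
  have e3 : ā = 1 := by
    have := pow_gcd_eq_one.mpr ⟨e1, e2⟩
    rwa [hcop.gcd_eq_one, pow_one] at this
  rw [e3] at hg hg'
  simp only [one_pow, Finset.sum_const, Finset.card_range, nsmul_eq_mul, mul_one] at hg hg'
  obtain ⟨u, v, huv⟩ := Nat.isCoprime_iff_coprime.mpr hcop
  have := congrArg (Int.cast : ℤ → IsLocalRing.ResidueField V) huv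
  push_cast at this
  rw [hg, hg', mul_zero, mul_zero, add_zero] at this
  exact zero_ne_one this

/-- **Leaf WA2.** if `a ∉ V` and `m ≥ 1` then `u = 1 + a + ⋯ + a ^ m` satisfies `v u = v a ^ m > 1`.
PROOF. `v a > 1`.  Induction on `m` (`Finset.sum_range_succ`): `v (∑_{i<m+1} a ^ i) ≤ v a ^ m < v a ^ (m+1)` and
`Valuation.map_add_eq_of_lt_left`. (prove `v (∑_{i < m+1} a^i) = v a ^ m` for all `m ≥ 0`.) -/
theorem WeakApprox_val_geom (V : ValuationSubring F) {a : F} (ha : a ∉ V) (m : ℕ) :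
    V.valuation (∑ i ∈ Finset.range (m + 1), a ^ i) = V.valuation a ^ m := by
  have h1 : 1 < V.valuation a := by
    rw [← not_le, ValuationSubring.valuation_le_one_iff]
    exact ha
  induction m with
  | zero => simp
  | succ m ih =>
    rw [Finset.sum_range_succ]
    have h2 : V.valuation (∑ i ∈ Finset.range (m + 1), a ^ i) < V.valuation (a ^ (m + 1)) := by
      rw [ih, map_pow]
      exact pow_lt_pow_right₀ h1 (Nat.lt_succ_self m)
    rw [Valuation.map_add_eq_of_lt_right _ h2, map_pow]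

/-- **Leaf WA3 (Matsumura 12.2).**
PROOF. For each `j` with `a ∈ W j` there is at most one bad prime (WA1); so the set of bad primes is finite
(image of `ι`; e.g. choose by `Classical` a function `b : ι → ℕ` with: every bad prime of `j` equals `b j`), and there is a
prime `p` outside it (`Nat.exists_infinite_primes (sup + 1)` or `Nat.infinite_setOf_prime.exists_notMem_finset`).
`u := ∑_{i<p} a ^ i`, `y := u⁻¹`, `x := a * u⁻¹`.  If `a ∈ W j`: `u ∈ W j`, `¬ v_j u < 1`, so `v_j u = 1`: fine.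
If `a ∉ W j`: `v_j u = v_j a ^ (p-1)` (WA2, `p = (p-1)+1`, `p - 1 ≥ 1`), so `v_j u⁻¹ < 1` and
`v_j (a u⁻¹) = v_j a ^ (1 - (p-1)) ≤ 1`. `u ≠ 0` in both cases if `ι` is nonempty; if `ι` is empty take `y = 1`, `x = a`. -/
theorem exists_denominator [Finite ι] (W : ι → ValuationSubring F) (a : F) :
    ∃ x y : F, y ≠ 0 ∧ a * y = x ∧ (∀ j, x ∈ W j) ∧ (∀ j, y ∈ W j) ∧
      ∀ j, a ∈ W j → (W j).valuation y = 1 := by
  rcases isEmpty_or_nonempty ι with hemp | ⟨⟨j₀⟩⟩
  · exact ⟨a, 1, one_ne_zero, mul_one a, fun j => hemp.elim j, fun j => hemp.elim j,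
      fun j => hemp.elim j⟩
  have hfin : (⋃ j : ι, {p : ℕ | p.Prime ∧ a ∈ W j ∧
      (W j).valuation (∑ i ∈ Finset.range p, a ^ i) < 1}).Finite := by
    refine Set.finite_iUnion fun j => Set.Subsingleton.finite ?_
    rintro p ⟨hp, ha, h⟩ p' ⟨hp', -, h'⟩
    by_contra hne
    exact WeakApprox_bad_prime_unique (W j) ha hp hp' hne h h'
  obtain ⟨p, hp, hpbad⟩ := Nat.infinite_setOfPred_prime.exists_notMem_finite hfin
  have hp : p.Prime := hp
  obtain ⟨m, rfl⟩ : ∃ m, p = m + 1 := ⟨p - 1, by have := hp.pos; omega⟩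
  have hm : m ≠ 0 := by
    rintro rfl
    exact Nat.not_prime_one hp
  set u : F := ∑ i ∈ Finset.range (m + 1), a ^ i with hu
  -- the good case
  have hA : ∀ j, a ∈ W j → (W j).valuation u = 1 := by
    intro j ha
    have h1 : u ∈ W j := (W j).sum_mem fun i _ => (W j).pow_mem ha i
    have h2 : ¬ (W j).valuation u < 1 := fun h =>
      hpbad (Set.mem_iUnion.mpr ⟨j, hp, ha, h⟩)
    exact le_antisymm ((W j).valuation_le_one_iff _ |>.mpr h1) (not_lt.mp h2)
  -- the other case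
  have hB : ∀ j, a ∉ W j → (W j).valuation u = (W j).valuation a ^ m := fun j ha =>
    WeakApprox_val_geom (W j) ha m
  have hgt : ∀ j, a ∉ W j → 1 < (W j).valuation a := by
    intro j ha
    rw [← not_le, ValuationSubring.valuation_le_one_iff]
    exact ha
  have hu0 : u ≠ 0 := by
    intro h0
    by_cases ha : a ∈ W j₀
    · have := hA j₀ ha
      rw [h0, map_zero] at this
      exact zero_ne_one this
    · have := hB j₀ ha
      rw [h0, map_zero] at this
      exact (pow_pos (zero_lt_one.trans (hgt j₀ ha)) m).ne this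
  have hy : ∀ j, u⁻¹ ∈ W j := by
    intro j
    rw [← ValuationSubring.valuation_le_one_iff, map_inv₀]
    by_cases ha : a ∈ W j
    · rw [hA j ha, inv_one]
    · rw [hB j ha]
      exact inv_le_one_of_one_le₀ (one_le_pow₀ (hgt j ha).le)
  refine ⟨a * u⁻¹, u⁻¹, inv_ne_zero hu0, rfl, fun j => ?_, hy, fun j ha => ?_⟩
  · by_cases ha : a ∈ W j
    · exact (W j).mul_mem _ _ ha (hy j)
    · rw [← ValuationSubring.valuation_le_one_iff, map_mul, map_inv₀, hB j ha,
        mul_inv_le_iff₀ (pow_pos (zero_lt_one.trans (hgt j ha)) m), one_mul]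
      exact le_self_pow₀ (hgt j ha).le hm
  · rw [map_inv₀, hA j ha, inv_one]

/-- **Leaf WA4.** two incomparable valuation rings.
PROOF. `t ∈ W i \ W j`, `s ∈ W j \ W i` (`SetLike.not_le_iff_exists`), `z := t / s`: `v_i z < 1` (as `v_i s > 1`, `v_i t ≤ 1`),
`v_j z > 1` (as `v_j t > 1`, `v_j s ≤ 1`, `s ≠ 0`).  `(x, y)` from `exists_denominator W z`: `z y = x`, `x, y ∈ ⋂ W`, `v_i y = 1` because `z ∈ W i`;
at `j`: `v_j y = v_j x / v_j z < 1`.  `ε := y`. -/
theorem exists_unit_zero [Finite ι] (W : ι → ValuationSubring F) {i j : ι} (hij : ¬ W i ≤ W j)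
    (hji : ¬ W j ≤ W i) :
    ∃ ε : F, (∀ l, ε ∈ W l) ∧ (W i).valuation ε = 1 ∧ (W j).valuation ε < 1 := by
  obtain ⟨t, hti, htj⟩ := SetLike.not_le_iff_exists.mp hij
  obtain ⟨s, hsj, hsi⟩ := SetLike.not_le_iff_exists.mp hji
  have hti' : (W i).valuation t ≤ 1 := (ValuationSubring.valuation_le_one_iff _ _).mpr hti
  have htj' : 1 < (W j).valuation t := by
    rw [← not_le, ValuationSubring.valuation_le_one_iff]
    exact htj
  have hsj' : (W j).valuation s ≤ 1 := (ValuationSubring.valuation_le_one_iff _ _).mpr hsj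
  have hsi' : 1 < (W i).valuation s := by
    rw [← not_le, ValuationSubring.valuation_le_one_iff]
    exact hsi
  have hs0 : s ≠ 0 := by
    rintro rfl
    exact hsi (zero_mem _)
  obtain ⟨x, y, -, hxy, hx, hy, hunit⟩ := exists_denominator W (t / s)
  have hzi : t / s ∈ W i := by
    rw [← ValuationSubring.valuation_le_one_iff, map_div₀]
    exact div_le_one_of_le₀ (hti'.trans hsi'.le) zero_le
  refine ⟨y, hy, hunit i hzi, ?_⟩
  have hzj : 1 < (W j).valuation (t / s) := by
    rw [map_div₀, one_lt_div₀ (zero_lt_iff.mpr ((Valuation.ne_zero_iff _).mpr hs0))]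
    exact lt_of_le_of_lt hsj' htj'
  have hxj : (W j).valuation x ≤ 1 := (ValuationSubring.valuation_le_one_iff _ _).mpr (hx j)
  rw [← hxy, map_mul] at hxj
  by_contra hcon
  rw [not_lt] at hcon
  exact absurd hxj (not_le.mpr (one_lt_mul_of_lt_of_le' hzj hcon))

theorem WeakApprox_exists_delta [Finite ι] (W : ι → ValuationSubring F)
    (hinc : ∀ i j, i ≠ j → ¬ W i ≤ W j) (i : ι) :
    ∃ δ : F, (∀ l, δ ∈ W l) ∧ (W i).valuation δ = 1 ∧ ∀ j, j ≠ i → (W j).valuation δ < 1 := by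
  classical
  cases nonempty_fintype ι
  have key : ∀ j, ∃ e : F, (∀ l, e ∈ W l) ∧ (W i).valuation e = 1 ∧
      (j ≠ i → (W j).valuation e < 1) := by
    intro j
    by_cases hj : j = i
    · exact ⟨1, fun l => one_mem _, map_one _, fun h => absurd hj h⟩
    · obtain ⟨e, h1, h2, h3⟩ := exists_unit_zero W (hinc i j (Ne.symm hj)) (hinc j i hj)
      exact ⟨e, h1, h2, fun _ => h3⟩
  choose e he1 he2 he3 using key
  refine ⟨∏ j, e j, fun l => prod_mem fun j _ => he1 j l, ?_, fun j hj => ?_⟩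
  · rw [map_prod]
    exact Finset.prod_eq_one fun j _ => he2 j
  · rw [← Finset.mul_prod_erase Finset.univ e (Finset.mem_univ j), map_mul]
    refine mul_lt_one_of_lt_of_le (he3 j hj) ?_
    rw [ValuationSubring.valuation_le_one_iff]
    exact prod_mem fun l _ => he1 l j

theorem WeakApprox_sum_sub [Fintype ι] [DecidableEq ι] (V : ValuationSubring F) (f : ι → F) (i : ι)
    (hf : ∀ j, j ≠ i → V.valuation (f j) < 1) : V.valuation (∑ l, f l - f i) < 1 := by
  rw [← Finset.add_sum_erase Finset.univ f (Finset.mem_univ i), add_sub_cancel_left]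
  exact Valuation.map_sum_lt _ one_ne_zero fun j hj => hf j (Finset.ne_of_mem_erase hj)

theorem WeakApprox_val_eq_one (V : ValuationSubring F) {x y : F} (hy : V.valuation y = 1)
    (hxy : V.valuation (x - y) < 1) : V.valuation x = 1 := by
  have h : x = y + (x - y) := by ring
  rw [h, Valuation.map_add_eq_of_lt_left _ (by rw [hy]; exact hxy), hy]

/-- **Leaf WA5.**
PROOF. `δ := ∏_{j ≠ i} ε_j` (`exists_unit_zero`; `Finset.univ.erase i`, `Fintype.ofFinite`, `Classical.decEq`): `δ ∈ ⋂ W`,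
`v_i δ = 1`, `v_j δ < 1` for `j ≠ i`.  Same for every index: `δ_l` (`l : ι`).  `D := ∑_l δ_l` is a unit of every `W l`
(`v_l (D - δ_l) < 1`, `v_l δ_l = 1`).  `ε := δ_i / D`. -/
theorem exists_idem [Finite ι] (W : ι → ValuationSubring F) (hinc : ∀ i j, i ≠ j → ¬ W i ≤ W j)
    (i : ι) :
    ∃ ε : F, (∀ l, ε ∈ W l) ∧ (W i).valuation (ε - 1) < 1 ∧ ∀ j, j ≠ i → (W j).valuation ε < 1 := by
  classical
  cases nonempty_fintype ι
  choose δ hδ1 hδ2 hδ3 using WeakApprox_exists_delta W hinc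
  have hsub : ∀ l, (W l).valuation (∑ m, δ m - δ l) < 1 := fun l =>
    WeakApprox_sum_sub (W l) δ l fun j hj => hδ3 j l (Ne.symm hj)
  have hD : ∀ l, (W l).valuation (∑ m, δ m) = 1 := fun l =>
    WeakApprox_val_eq_one (W l) (hδ2 l) (hsub l)
  have hD0 : ∑ m, δ m ≠ 0 := by
    rw [← Valuation.ne_zero_iff (W i).valuation, hD i]
    exact one_ne_zero
  refine ⟨δ i / ∑ m, δ m, fun l => ?_, ?_, fun j hj => ?_⟩
  · rw [← ValuationSubring.valuation_le_one_iff, map_div₀, hD l, div_one,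
      ValuationSubring.valuation_le_one_iff]
    exact hδ1 i l
  · have h : δ i / ∑ m, δ m - 1 = (δ i - ∑ m, δ m) / ∑ m, δ m := by
      field_simp
    rw [h, map_div₀, hD i, div_one, Valuation.map_sub_swap]
    exact hsub i
  · rw [map_div₀, hD j, div_one]
    exact hδ3 i j hj

theorem WeakApprox_sum_idem [Fintype ι] [DecidableEq ι] (W : ι → ValuationSubring F) (ε : ι → F)
    (hε2 : ∀ i, (W i).valuation (ε i - 1) < 1)
    (hε3 : ∀ i j, j ≠ i → (W j).valuation (ε i) < 1) (x : ι → F) (hx : ∀ i l, x i ∈ W l) (i : ι) :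
    (W i).valuation (∑ l, x l * ε l - x i) < 1 := by
  have hx' : ∀ l, (W i).valuation (x l) ≤ 1 := fun l =>
    (ValuationSubring.valuation_le_one_iff _ _).mpr (hx l i)
  have h : ∑ l, x l * ε l - x i = (∑ l, x l * ε l - x i * ε i) + x i * (ε i - 1) := by ring
  rw [h]
  refine Valuation.map_add_lt _ ?_ ?_
  · refine WeakApprox_sum_sub (W i) (fun l => x l * ε l) i fun j hj => ?_
    rw [map_mul, mul_comm]
    exact mul_lt_one_of_lt_of_le (hε3 j i (Ne.symm hj)) (hx' j)
  · rw [map_mul, mul_comm]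
    exact mul_lt_one_of_lt_of_le (hε2 i) (hx' i)

/-- **Leaf WA6.** prescribing residues.
PROOF. `(x_i, d_i)` := denominator pair of `y i` (`exists_denominator`), `ε_i` from `exists_idem`.
`N := ∑ x_i ε_i`, `D := ∑ d_i ε_i`.  At `i`: `v_i (N - x_i) < 1`, `v_i (D - d_i) < 1`, `v_i d_i = 1`; so `v_i D = 1` and
`N / D - y i = (N - y_i D) / D`, `N - y_i D = (N - x_i) - y_i (D - d_i)` (`x_i = y_i d_i`), `v_i (y i) ≤ 1`. -/
theorem exists_residue_approx [Finite ι] (W : ι → ValuationSubring F)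
    (hinc : ∀ i j, i ≠ j → ¬ W i ≤ W j) (y : ι → F) (hy : ∀ i, y i ∈ W i) :
    ∃ h : F, ∀ i, (W i).valuation (h - y i) < 1 := by
  classical
  cases nonempty_fintype ι
  choose x d _hd0 hxd hx hd hunit using fun i => exists_denominator W (y i)
  choose ε _hε1 hε2 hε3 using exists_idem W hinc
  refine ⟨(∑ l, x l * ε l) / ∑ l, d l * ε l, fun i => ?_⟩
  have hN := WeakApprox_sum_idem W ε hε2 hε3 x hx i
  have hDs := WeakApprox_sum_idem W ε hε2 hε3 d hd i
  have hD : (W i).valuation (∑ l, d l * ε l) = 1 :=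
    WeakApprox_val_eq_one (W i) (hunit i i (hy i)) hDs
  have hD0 : ∑ l, d l * ε l ≠ 0 := by
    rw [← Valuation.ne_zero_iff (W i).valuation, hD]
    exact one_ne_zero
  have h : (∑ l, x l * ε l) / ∑ l, d l * ε l - y i =
      ((∑ l, x l * ε l - x i) - y i * (∑ l, d l * ε l - d i)) / ∑ l, d l * ε l := by
    rw [← hxd i]
    field_simp
    ring
  rw [h, map_div₀, hD, div_one]
  refine Valuation.map_sub_lt _ hN ?_
  rw [map_mul, mul_comm]
  exact mul_lt_one_of_lt_of_le hDs ((ValuationSubring.valuation_le_one_iff _ _).mpr (hy i))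

section Vert

variable {O : Type*} [CommRing O] [Algebra O F]

/-- powers of a non unit are small. -/
theorem WeakApprox_pow_le {π : O} {W : ι → ValuationSubring F} {E : ℕ} (hV : Vert π W E) (i : ι)
    {z : F} (hz : (W i).valuation z < 1) {r N : ℕ} (hN : E * r ≤ N) :
    (W i).valuation z ^ N ≤ (W i).valuation (algebraMap O F π) ^ r :=
  calc (W i).valuation z ^ N ≤ (W i).valuation z ^ (E * r) := pow_le_pow_right_of_le_one' hz.le hN
    _ = ((W i).valuation z ^ E) ^ r := pow_mul _ _ _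
    _ ≤ _ := pow_le_pow_left' (hV.disc i z hz) r

/-- **Leaf WA7.** idempotents modulo `π ^ r`.
PROOF. `ε` from `exists_idem`, `N := E * r + 1` (any `N ≥ 1` with `N ≥ E r`), `ε' := 1 - (1 - ε ^ N) ^ N`.
At `j ≠ i`: `ε' = ε ^ N * (polynomial in ε ^ N with integer coefficients)`: `1 - (1 - x) ^ N = x * ∑_{k<N} (1-x)^k`
(`mul_geom_sum`/`geom_sum_mul`, `x = 1 - (1 - x)`), so `v_j ε' ≤ v_j ε ^ N ≤ (v_j ε ^ E) ^ r ≤ v_j π ^ r`.
At `i`: `ε' - 1 = - (1 - ε ^ N) ^ N`, `1 - ε ^ N = (1 - ε) * ∑ ε ^ k` has `v_i < 1`, so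
`v_i (ε' - 1) = v_i (1 - ε ^ N) ^ N ≤ v_i π ^ r` by `hV.disc`. -/
theorem exists_strong_idem [Finite ι] {π : O} {W : ι → ValuationSubring F} {E : ℕ}
    (hV : Vert π W E) (hinc : ∀ i j, i ≠ j → ¬ W i ≤ W j) (i : ι) (r : ℕ) :
    ∃ ε : F, (∀ l, ε ∈ W l) ∧
      (W i).valuation (ε - 1) ≤ (W i).valuation (algebraMap O F π) ^ r ∧
      ∀ j, j ≠ i → (W j).valuation ε ≤ (W j).valuation (algebraMap O F π) ^ r := by
  obtain ⟨ε, hεW, hεi, hεj⟩ := exists_idem W hinc i
  have hgeo : ∀ (x : F) (l : ι), x ∈ W l → ∀ n : ℕ, ∑ k ∈ Finset.range n, x ^ k ∈ W l :=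
    fun x l hx n => (W l).toSubring.sum_mem fun k _ => (W l).pow_mem hx k
  have hx : ∀ l, ε ^ (E * r + 1) ∈ W l := fun l => (W l).pow_mem (hεW l) _
  have h1x : ∀ l, 1 - ε ^ (E * r + 1) ∈ W l := fun l => (W l).sub_mem (W l).one_mem (hx l)
  refine ⟨1 - (1 - ε ^ (E * r + 1)) ^ (E * r + 1),
    fun l => (W l).sub_mem (W l).one_mem ((W l).pow_mem (h1x l) _), ?_, fun j hj => ?_⟩
  · have e1 : 1 - (1 - ε ^ (E * r + 1)) ^ (E * r + 1) - 1 = -(1 - ε ^ (E * r + 1)) ^ (E * r + 1) := by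
      ring
    rw [e1, Valuation.map_neg, map_pow]
    refine WeakApprox_pow_le hV i ?_ (Nat.le_succ _)
    rw [← mul_neg_geom_sum, map_mul, Valuation.map_sub_swap]
    calc (W i).valuation (ε - 1) * (W i).valuation (∑ k ∈ Finset.range (E * r + 1), ε ^ k)
        ≤ (W i).valuation (ε - 1) * 1 :=
          mul_le_mul_right ((W i).valuation_le_one_iff _ |>.2 (hgeo ε i (hεW i) _)) _
      _ < 1 := by rw [mul_one]; exact hεi
  · have e1 : 1 - (1 - ε ^ (E * r + 1)) ^ (E * r + 1) =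
        ε ^ (E * r + 1) * ∑ k ∈ Finset.range (E * r + 1), (1 - ε ^ (E * r + 1)) ^ k := by
      rw [← mul_neg_geom_sum]
      ring
    rw [e1, map_mul, map_pow]
    calc (W j).valuation ε ^ (E * r + 1) *
          (W j).valuation (∑ k ∈ Finset.range (E * r + 1), (1 - ε ^ (E * r + 1)) ^ k)
        ≤ (W j).valuation ε ^ (E * r + 1) * 1 :=
          mul_le_mul_right ((W j).valuation_le_one_iff _ |>.2 (hgeo _ j (h1x j) _)) _
      _ = (W j).valuation ε ^ (E * r + 1) := mul_one _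
      _ ≤ _ := WeakApprox_pow_le hV j (hεj j hj) (Nat.le_succ _)

/-- **Leaf WA8.** strong approximation.
PROOF. Choose `N` with `π ^ N * y i ∈ W j` for all `i j` (finite sup of `harch`; `π ∈ W j`).  `ε_i` from
`exists_strong_idem` with `r + N`.  `h := ∑ y_i ε_i`.  At `i`: `h - y_i = y_i (ε_i - 1) + ∑_{l ≠ i} y_l ε_l`, each term has
`v_i ≤ v_i (y_l) v_i π ^ (r + N) ≤ v_i π ^ r`  (`v_i (y_l) * v_i π ^ N ≤ 1`). (`Valuation.map_sum_le`.) -/
theorem exists_strong_approx [Finite ι] {π : O} {W : ι → ValuationSubring F} {E : ℕ}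
    (hV : Vert π W E) (hinc : ∀ i j, i ≠ j → ¬ W i ≤ W j)
    (harch : ∀ i (z : F), ∃ N : ℕ, algebraMap O F π ^ N * z ∈ W i) (y : ι → F) (r : ℕ) :
    ∃ h : F, ∀ i, (W i).valuation (h - y i) ≤ (W i).valuation (algebraMap O F π) ^ r := by
  classical
  cases nonempty_fintype ι
  choose n hn using fun p : ι × ι => harch p.1 (y p.2)
  set N : ℕ := Finset.univ.sup n with hN
  have hπW : ∀ i, algebraMap O F π ∈ W i := fun i =>
    ((W i).valuation_le_one_iff _).1 (hV.pi_lt i).le
  have hNy : ∀ i l, (W i).valuation (y l) * (W i).valuation (algebraMap O F π) ^ N ≤ 1 := by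
    intro i l
    have h1 : n (i, l) ≤ N := Finset.le_sup (Finset.mem_univ (i, l))
    obtain ⟨d, hd⟩ := Nat.exists_eq_add_of_le h1
    have h2 : algebraMap O F π ^ N * y l ∈ W i := by
      rw [hd, add_comm, pow_add, mul_assoc]
      exact (W i).mul_mem _ _ ((W i).pow_mem (hπW i) d) (hn (i, l))
    rw [← map_pow, ← map_mul, mul_comm]
    exact ((W i).valuation_le_one_iff _).2 h2
  choose ε hεW hεi hεj using fun l => exists_strong_idem hV hinc l (r + N)
  refine ⟨∑ l, y l * ε l, fun i => ?_⟩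
  have e1 : ∑ l, y l * ε l - y i = ∑ l, y l * (ε l - if l = i then 1 else 0) := by
    simp only [mul_sub, Finset.sum_sub_distrib, mul_ite, mul_one, mul_zero, Finset.sum_ite_eq',
      Finset.mem_univ, if_true]
  rw [e1]
  refine Valuation.map_sum_le _ fun l _ => ?_
  have h3 : (W i).valuation (ε l - if l = i then 1 else 0) ≤
      (W i).valuation (algebraMap O F π) ^ (r + N) := by
    by_cases hl : l = i
    · subst hl
      rw [if_pos rfl]
      exact hεi l
    · rw [if_neg hl, sub_zero]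
      exact hεj l i (Ne.symm hl)
  rw [map_mul]
  calc (W i).valuation (y l) * (W i).valuation (ε l - if l = i then 1 else 0)
      ≤ (W i).valuation (y l) * (W i).valuation (algebraMap O F π) ^ (r + N) :=
        mul_le_mul_right h3 _
    _ = (W i).valuation (y l) * (W i).valuation (algebraMap O F π) ^ N *
          (W i).valuation (algebraMap O F π) ^ r := by
            rw [pow_add, mul_comm (_ ^ r) (_ ^ N), mul_assoc]
    _ ≤ 1 * (W i).valuation (algebraMap O F π) ^ r := mul_le_mul_left (hNy i l) _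
    _ = _ := one_mul _

/-- **Leaf WA9.** prescribed valuations and leading terms.
PROOF. Choose `N` with `π ^ N * (y i)⁻¹ ∈ W i` for all `i`; `φ` from `exists_strong_approx` with `r = N + 1`:
`v_i (φ / y_i - 1) = v_i (φ - y_i) / v_i (y_i) ≤ v_i π ^ (N+1) v_i (y_i)⁻¹ ≤ v_i π < 1`.  `φ ≠ 0` since otherwise `v_i (-1) < 1`
(needs `ι` nonempty; if `ι` is empty take `φ = 1`). -/
theorem exists_prescribed [Finite ι] {π : O} {W : ι → ValuationSubring F} {E : ℕ}
    (hV : Vert π W E) (hinc : ∀ i j, i ≠ j → ¬ W i ≤ W j)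
    (harch : ∀ i (z : F), ∃ N : ℕ, algebraMap O F π ^ N * z ∈ W i) (y : ι → F)
    (hy : ∀ i, y i ≠ 0) :
    ∃ φ : F, φ ≠ 0 ∧ ∀ i, (W i).valuation (φ * (y i)⁻¹ - 1) < 1 := by
  classical
  cases nonempty_fintype ι
  by_cases hι : Nonempty ι
  · obtain ⟨i₀⟩ := hι
    choose n hn using fun i : ι => harch i (y i)⁻¹
    set N : ℕ := Finset.univ.sup n with hN
    have hπW : ∀ i, algebraMap O F π ∈ W i := fun i =>
      ((W i).valuation_le_one_iff _).1 (hV.pi_lt i).le
    have hNy : ∀ i, (W i).valuation (algebraMap O F π) ^ N * (W i).valuation (y i)⁻¹ ≤ 1 := by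
      intro i
      have h1 : n i ≤ N := Finset.le_sup (Finset.mem_univ i)
      obtain ⟨d, hd⟩ := Nat.exists_eq_add_of_le h1
      have h2 : algebraMap O F π ^ N * (y i)⁻¹ ∈ W i := by
        rw [hd, add_comm, pow_add, mul_assoc]
        exact (W i).mul_mem _ _ ((W i).pow_mem (hπW i) d) (hn i)
      rw [← map_pow, ← map_mul]
      exact ((W i).valuation_le_one_iff _).2 h2
    obtain ⟨φ, hφ⟩ := exists_strong_approx hV hinc harch y (N + 1)
    have key : ∀ i, (W i).valuation (φ * (y i)⁻¹ - 1) < 1 := by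
      intro i
      have e1 : φ * (y i)⁻¹ - 1 = (φ - y i) * (y i)⁻¹ := by
        rw [sub_mul, mul_inv_cancel₀ (hy i)]
      rw [e1, map_mul]
      calc (W i).valuation (φ - y i) * (W i).valuation (y i)⁻¹
          ≤ (W i).valuation (algebraMap O F π) ^ (N + 1) * (W i).valuation (y i)⁻¹ :=
            mul_le_mul_left (hφ i) _
        _ = (W i).valuation (algebraMap O F π) *
            ((W i).valuation (algebraMap O F π) ^ N * (W i).valuation (y i)⁻¹) := by
              rw [pow_succ, mul_comm (_ ^ N) _, mul_assoc]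
        _ ≤ (W i).valuation (algebraMap O F π) * 1 := mul_le_mul_right (hNy i) _
        _ = (W i).valuation (algebraMap O F π) := mul_one _
        _ < 1 := hV.pi_lt i
    refine ⟨φ, ?_, key⟩
    rintro rfl
    have := key i₀
    rw [zero_mul, zero_sub, Valuation.map_neg, map_one] at this
    exact lt_irrefl _ this
  · exact ⟨1, one_ne_zero, fun i => absurd ⟨i⟩ hι⟩

end Vert

end Fermat.Agent.S36R.Inj
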