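import Mathlib

/-!
# S36 route R, block (7) `INJ_reg`: approximate `n`-th roots (Newton-like iteration)

Pure valuation theory in a field `F`.  `apx n x m` is the `m`-th term of the iteration
`y ↦ y + (x - y ^ n) / n`, `y₀ = 1`.  It is given by universal polynomials in `x` with coefficients in
`ℤ[1/n]`, so it lies in every subring containing `x` and `1/n`, and for EVERY valuation `v` with
`v n = 1`, `v (x - 1) ≤ γ ≤ 1` it satisfies `v (y_m ^ n - x) ≤ γ ^ (m + 1)`.
-/

set_option autoImplicit false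
set_option maxHeartbeats 400000

namespace Fermat.Agent.S36R.Inj

variable {F : Type*} [Field F]

/-- the iteration `y₀ = 1`, `y_{m+1} = y_m + (x - y_m ^ n) / n`. -/
noncomputable def apx (n : ℕ) (x : F) : ℕ → F
  | 0 => 1
  | m + 1 => apx n x m + (n : F)⁻¹ * (x - apx n x m ^ n)

@[simp] theorem apx_zero (n : ℕ) (x : F) : apx n x 0 = 1 := rfl

theorem apx_succ (n : ℕ) (x : F) (m : ℕ) :
    apx n x (m + 1) = apx n x m + (n : F)⁻¹ * (x - apx n x m ^ n) := rfl

/-- **Leaf Apx1.** (induction on `m`.) -/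
theorem apx_mem (A : Subring F) (n : ℕ) (x : F) (hn : (n : F)⁻¹ ∈ A) (hx : x ∈ A) (m : ℕ) :
    apx n x m ∈ A := by
  induction m with
  | zero => exact A.one_mem
  | succ m ih =>
    rw [apx_succ]
    exact A.add_mem ih (A.mul_mem hn (A.sub_mem hx (A.pow_mem ih n)))

/-- second order Taylor expansion of `y ↦ y ^ n` in a commutative ring.
(`Polynomial.binomExpansion (X ^ n)`, or induction on `n`.) -/
theorem Apx_add_pow {B : Type*} [CommRing B] (y d : B) (n : ℕ) :
    ∃ r : B, (y + d) ^ n = y ^ n + n * y ^ (n - 1) * d + d ^ 2 * r := by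
  obtain ⟨k, hk⟩ := Polynomial.powAddExpansion y d n
  exact ⟨k, by rw [hk]; ring⟩

theorem Apx_pow_sub_one {Γ : Type*} [LinearOrderedCommGroupWithZero Γ] (v : Valuation F Γ)
    (y : F) (γ : Γ) (hγ : γ ≤ 1) (hy : v (y - 1) ≤ γ) (k : ℕ) :
    v (y ^ k) ≤ 1 ∧ v (y ^ k - 1) ≤ γ := by
  have hy1 : v y ≤ 1 := by
    have h1 : y = (y - 1) + 1 := by ring
    rw [h1]
    exact v.map_add_le (hy.trans hγ) (le_of_eq v.map_one)
  have hyk : ∀ k : ℕ, v (y ^ k) ≤ 1 := fun k => by
    rw [map_pow]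
    exact pow_le_one' hy1 k
  refine ⟨hyk k, ?_⟩
  induction k with
  | zero => simp
  | succ k ih =>
    have h1 : y ^ (k + 1) - 1 = y ^ k * (y - 1) + (y ^ k - 1) := by ring
    rw [h1]
    refine v.map_add_le ?_ ih
    rw [map_mul]
    calc v (y ^ k) * v (y - 1) ≤ 1 * γ := mul_le_mul' (hyk k) hy
      _ = γ := one_mul _

/-- **Leaf Apx2.**
PROOF. Induction on `m`. `m = 0`: `v (1 - x) = v (x - 1) ≤ γ`. Step: `y = apx n x m`, `d = (x - y ^ n) / n`,
`v d ≤ γ ^ (m+1) ≤ γ`, so `v (y + d - 1) ≤ γ`.  To bound the remainder work in the valuation ring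
`v.integer` (or `v.valuationSubring`): `y, d` are integral (`v y ≤ 1` because `v (y - 1) ≤ γ ≤ 1`), so by
`Apx_add_pow` in that ring `(y + d) ^ n = y ^ n + n y ^ (n-1) d + d ^ 2 r` with `v r ≤ 1`.  Hence
`(y + d) ^ n - x = (y ^ n - x) (1 - y ^ (n-1)) + d ^ 2 r`, `v (1 - y ^ (n-1)) ≤ γ`
(`y ^ k - 1 = (y - 1) * ∑ ...`, `sub_one_mul_geom_sum`/`mul_geom_sum`, or induction on `k`), and
`v (d ^ 2) ≤ γ ^ (2 m + 2) ≤ γ ^ (m + 2)`. -/
theorem apx_spec {Γ : Type*} [LinearOrderedCommGroupWithZero Γ] (v : Valuation F Γ) (n : ℕ)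
    (hn : v (n : F) = 1) (x : F) (γ : Γ) (hγ : γ ≤ 1) (hx : v (x - 1) ≤ γ) (m : ℕ) :
    v (apx n x m - 1) ≤ γ ∧ v (apx n x m ^ n - x) ≤ γ ^ (m + 1) := by
  have hn0 : (n : F) ≠ 0 := by
    intro h0
    rw [h0, map_zero] at hn
    exact zero_ne_one hn
  induction m with
  | zero =>
    refine ⟨by simp, ?_⟩
    rw [apx_zero, one_pow, zero_add, pow_one, ← Valuation.map_sub_swap]
    exact hx
  | succ m ih =>
    obtain ⟨ih1, ih2⟩ := ih
    rw [apx_succ]
    set y := apx n x m with hy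
    set d := (n : F)⁻¹ * (x - y ^ n) with hd
    have hnd : (n : F) * d = x - y ^ n := by
      rw [hd, ← mul_assoc, mul_inv_cancel₀ hn0, one_mul]
    have hvd : v d ≤ γ ^ (m + 1) := by
      rw [hd, map_mul, map_inv₀, hn, inv_one, one_mul, Valuation.map_sub_swap]
      exact ih2
    have hγm : γ ^ (m + 1) ≤ γ := by
      calc γ ^ (m + 1) = γ ^ m * γ := pow_succ _ _
        _ ≤ 1 * γ := mul_le_mul' (pow_le_one' hγ m) le_rfl
        _ = γ := one_mul _
    have hvd1 : v d ≤ 1 := (hvd.trans hγm).trans hγ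
    have hvy1 : v y ≤ 1 := by
      simpa using (Apx_pow_sub_one v y γ hγ ih1 1).1
    refine ⟨?_, ?_⟩
    · have h1 : y + d - 1 = (y - 1) + d := by ring
      rw [h1]
      exact v.map_add_le ih1 (hvd.trans hγm)
    · obtain ⟨r, hr⟩ := Apx_add_pow (⟨y, hvy1⟩ : v.integer) (⟨d, hvd1⟩ : v.integer) n
      have hr' : (y + d) ^ n = y ^ n + n * y ^ (n - 1) * d + d ^ 2 * (r : F) := by
        simpa using congrArg (Subtype.val : v.integer → F) hr
      have hvr : v (r : F) ≤ 1 := r.2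
      have h2 : (y + d) ^ n - x = (y ^ n - x) * (1 - y ^ (n - 1)) + d ^ 2 * (r : F) := by
        rw [hr']
        have h3 : (n : F) * y ^ (n - 1) * d = y ^ (n - 1) * (x - y ^ n) := by
          rw [← hnd]; ring
        rw [h3]; ring
      rw [h2]
      refine v.map_add_le ?_ ?_
      · rw [map_mul, Valuation.map_sub_swap v 1]
        calc v (y ^ n - x) * v (y ^ (n - 1) - 1) ≤ γ ^ (m + 1) * γ :=
              mul_le_mul' ih2 (Apx_pow_sub_one v y γ hγ ih1 (n - 1)).2
          _ = γ ^ (m + 1 + 1) := (pow_succ _ _).symm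
      · rw [map_mul, map_pow]
        calc v d ^ 2 * v (r : F) ≤ (γ ^ (m + 1)) ^ 2 * 1 :=
              mul_le_mul' (pow_le_pow_left' hvd 2) hvr
          _ = γ ^ (m + 1) * γ ^ (m + 1) := by rw [mul_one, sq]
          _ ≤ γ ^ (m + 1) * γ := mul_le_mul' le_rfl hγm
          _ = γ ^ (m + 1 + 1) := (pow_succ _ _).symm

/-- powers of congruent integral elements are congruent. -/
theorem Apx_pow_sub_pow_lt {Γ : Type*} [LinearOrderedCommGroupWithZero Γ] (v : Valuation F Γ)
    (s t : F) (hs : v s ≤ 1) (ht : v t ≤ 1) (hst : v (s - t) < 1) (i : ℕ) :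
    v (s ^ i - t ^ i) < 1 := by
  induction i with
  | zero => simp
  | succ i ih =>
    have e : s ^ (i + 1) - t ^ (i + 1) = s ^ i * (s - t) + (s ^ i - t ^ i) * t := by ring
    rw [e]
    refine lt_of_le_of_lt (v.map_add _ _) (max_lt ?_ ?_)
    · rw [map_mul, map_pow]
      exact lt_of_le_of_lt (mul_le_of_le_one_left' (pow_le_one' hs i)) hst
    · rw [map_mul]
      exact lt_of_le_of_lt (mul_le_of_le_one_right' ht) ih

theorem Apx_val_eq_one_of_sub_lt {Γ : Type*} [LinearOrderedCommGroupWithZero Γ] (v : Valuation F Γ)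
    (s t : F) (ht : v t = 1) (hst : v (s - t) < 1) : v s = 1 := by
  have e : s = (s - t) + t := by ring
  rw [e, v.map_add_eq_of_lt_right (by rw [ht]; exact hst), ht]

/-- **Leaf Apx3 (uniqueness of approximate roots).**
PROOF. `s ^ n - t ^ n = (s - t) * ∑_{i<n} s ^ i t ^ (n-1-i)` (`Commute.mul_geom_sum₂`, `mul_geom_sum₂`...).
`v s = 1` (`Valuation.map_eq_of_sub_lt`-type lemma).  The sum is `n t ^ (n-1) + (element of valuation < 1)`
(each `s ^ i t ^ (n-1-i) - t ^ (n-1)` has valuation `< 1`), so it has valuation `1`. -/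
theorem approx_unique {Γ : Type*} [LinearOrderedCommGroupWithZero Γ] (v : Valuation F Γ) (n : ℕ)
    (hn : v (n : F) = 1) (s t : F) (δ : Γ) (ht : v t = 1) (hst : v (s - t) < 1)
    (h : v (s ^ n - t ^ n) ≤ δ) : v (s - t) ≤ δ := by
  have hs : v s = 1 := Apx_val_eq_one_of_sub_lt v s t ht hst
  have hfac := (Commute.all s t).mul_geom_sum₂ n
  set G := ∑ i ∈ Finset.range n, s ^ i * t ^ (n - 1 - i) with hG
  have hdiff : G = ∑ i ∈ Finset.range n, (s ^ i - t ^ i) * t ^ (n - 1 - i) + (n : F) * t ^ (n - 1) := by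
    have h1 : ∀ i ∈ Finset.range n, s ^ i * t ^ (n - 1 - i) =
        (s ^ i - t ^ i) * t ^ (n - 1 - i) + t ^ (n - 1) := by
      intro i hi
      have hi' : i + (n - 1 - i) = n - 1 := by
        have := Finset.mem_range.1 hi
        omega
      rw [sub_mul, ← pow_add, hi']
      ring
    rw [hG, Finset.sum_congr rfl h1, Finset.sum_add_distrib, Finset.sum_const, Finset.card_range,
      nsmul_eq_mul]
  have hsmall : v (∑ i ∈ Finset.range n, (s ^ i - t ^ i) * t ^ (n - 1 - i)) < 1 := by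
    apply v.map_sum_lt one_ne_zero
    intro i _
    rw [map_mul, map_pow, ht, one_pow, mul_one]
    exact Apx_pow_sub_pow_lt v s t hs.le ht.le hst i
  have hmain : v ((n : F) * t ^ (n - 1)) = 1 := by
    rw [map_mul, hn, map_pow, ht, one_pow, mul_one]
  have hGv : v G = 1 := by
    rw [hdiff, v.map_add_eq_of_lt_right (by rw [hmain]; exact hsmall), hmain]
  rw [← hfac, map_mul, hGv, mul_one] at h
  exact h

/-- the approximate `n`-th root of `f` close to `h`. -/
noncomputable def sApx (n : ℕ) (f h : F) (m : ℕ) : F := h * apx n (f * (h ^ n)⁻¹) m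

theorem Apx_val_centre {Γ : Type*} [LinearOrderedCommGroupWithZero Γ] (v : Valuation F Γ) (n : ℕ)
    (hn : v (n : F) = 1) (f h : F) (hf : v f = 1) (hh : v (f - h ^ n) < 1) : v h = 1 := by
  have hn0 : n ≠ 0 := by
    rintro rfl
    simp at hn
  have h1 : v (h ^ n) = 1 := by
    apply Apx_val_eq_one_of_sub_lt v _ f hf
    rw [← v.map_neg]
    simpa using hh
  rw [map_pow] at h1
  exact (pow_eq_one_iff_of_nonneg zero_le hn0).1 h1

/-- **Leaf Apx4.**  `p` plays the role of the uniformiser `π`; `hE` is "`e(v) ≤ E`".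
PROOF. `v h = 1` (from `v (h ^ n) = v f = 1`, since `v (f - h ^ n) < 1`; `n ≠ 0` since otherwise `v (n : F) = 0`).
`x = f / h ^ n`, `γ = v (x - 1) = v (f - h ^ n) < 1`.  `apx_spec` with `m = E * r`:
`v (apx ^ n - x) ≤ γ ^ (E r + 1) ≤ (γ ^ E) ^ r ≤ v p ^ r`.  Multiply by `h`, `h ^ n`. -/
theorem sApx_spec {Γ : Type*} [LinearOrderedCommGroupWithZero Γ] (v : Valuation F Γ) (n : ℕ)
    (hn : v (n : F) = 1) (f h p : F) (E : ℕ) (hE : ∀ z : F, v z < 1 → v z ^ E ≤ v p)
    (hf : v f = 1) (hh : v (f - h ^ n) < 1) (r : ℕ) :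
    v (sApx n f h (E * r) - h) < 1 ∧ v (sApx n f h (E * r) ^ n - f) ≤ v p ^ r := by
  have hvh : v h = 1 := Apx_val_centre v n hn f h hf hh
  have hh0 : h ≠ 0 := by
    rintro rfl
    simp at hvh
  have hhn0 : h ^ n ≠ 0 := pow_ne_zero _ hh0
  have hvhn : v (h ^ n) = 1 := by rw [map_pow, hvh, one_pow]
  set x := f * (h ^ n)⁻¹ with hx
  have hx1 : x - 1 = (f - h ^ n) * (h ^ n)⁻¹ := by
    rw [hx, sub_mul, mul_inv_cancel₀ hhn0]
  have hvx : v (x - 1) = v (f - h ^ n) := by
    rw [hx1, map_mul, map_inv₀, hvhn, inv_one, mul_one]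
  obtain ⟨h1, h2⟩ := apx_spec v n hn x (v (f - h ^ n)) hh.le hvx.le (E * r)
  constructor
  · have e : sApx n f h (E * r) - h = h * (apx n x (E * r) - 1) := by
      rw [sApx, mul_sub, mul_one]
    rw [e, map_mul, hvh, one_mul]
    exact lt_of_le_of_lt h1 hh
  · have e : sApx n f h (E * r) ^ n - f = h ^ n * (apx n x (E * r) ^ n - x) := by
      rw [sApx, mul_pow, mul_sub, hx, mul_comm f, mul_inv_cancel_left₀ hhn0]
    rw [e, map_mul, hvhn, one_mul]
    refine h2.trans ?_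
    rw [pow_succ, pow_mul]
    refine (mul_le_of_le_one_right' hh.le).trans ?_
    exact pow_le_pow_left' (hE _ hh) r

/-- **Leaf Apx5.** two centres `h`, `g` with the same residue give the same approximate root mod `p ^ r`.
PROOF. `sApx_spec` for `h` and for `g` (`v (f - g ^ n) < 1` because `v (h - g) < 1`, `v h = 1`), then
`approx_unique` with `s = sApx n f h _`, `t = sApx n f g _`, `δ = v p ^ r`
(`s ^ n - t ^ n = (s ^ n - f) - (t ^ n - f)`). -/
theorem sApx_congr {Γ : Type*} [LinearOrderedCommGroupWithZero Γ] (v : Valuation F Γ) (n : ℕ)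
    (hn : v (n : F) = 1) (f h g p : F) (E : ℕ) (hE : ∀ z : F, v z < 1 → v z ^ E ≤ v p)
    (hf : v f = 1) (hh : v (f - h ^ n) < 1) (hg : v (h - g) < 1) (r : ℕ) :
    v (sApx n f h (E * r) - sApx n f g (E * r)) ≤ v p ^ r := by
  have hvh : v h = 1 := Apx_val_centre v n hn f h hf hh
  have hvg : v g = 1 := by
    apply Apx_val_eq_one_of_sub_lt v g h hvh
    rw [← v.map_neg]
    simpa using hg
  have hgg : v (f - g ^ n) < 1 := by
    have e : f - g ^ n = (f - h ^ n) + (h ^ n - g ^ n) := by ring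
    rw [e]
    exact lt_of_le_of_lt (v.map_add _ _)
      (max_lt hh (Apx_pow_sub_pow_lt v h g hvh.le hvg.le hg n))
  obtain ⟨a1, a2⟩ := sApx_spec v n hn f h p E hE hf hh r
  obtain ⟨b1, b2⟩ := sApx_spec v n hn f g p E hE hf hgg r
  set S := sApx n f h (E * r)
  set T := sApx n f g (E * r)
  have hvT : v T = 1 := Apx_val_eq_one_of_sub_lt v T g hvg b1
  have hST : v (S - T) < 1 := by
    have e : S - T = ((S - h) + (h - g)) - (T - g) := by ring
    rw [e]
    exact lt_of_le_of_lt (v.map_sub _ _)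
      (max_lt (lt_of_le_of_lt (v.map_add _ _) (max_lt a1 hg)) b1)
  apply approx_unique v n hn S T _ hvT hST
  have e : S ^ n - T ^ n = (S ^ n - f) - (T ^ n - f) := by ring
  rw [e]
  exact (v.map_sub _ _).trans (max_le a2 b2)

end Fermat.Agent.S36R.Inj
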