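import Fermat.Agent.S36R.Inj.RootMod

/-!
# S36 route R, block (7) `INJ_reg`: the Čech argument (`H¹` is finitely generated over `O`)

`M₀`, `M₁` are `O`-submodules of `F`, stable under `c`, resp. `c⁻¹`, commensurable after inverting `c`, and
`M₀` is finitely generated over `O[c]`.  Then `M₀₁ / (M₀ + M₁)` is a finitely generated `O`-module, so its
`π`-power torsion is killed by a fixed `π ^ a`.
-/

set_option autoImplicit false
set_option maxHeartbeats 400000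

namespace Fermat.Agent.S36R.Inj

variable {O : Type*} [CommRing O] {F : Type*} [Field F] [Algebra O F]

/-- **Leaf T1 (abstract).** bounded `π`-power torsion of `(N + V) / N`, `V` finitely generated.
PROOF. `V` is a noetherian module (`isNoetherian_of_fg_of_noetherian V hV`, or
`isNoetherian_submodule'`-style).  The submodules `V_r := {v ∈ V | π ^ r • v ∈ N}` of `V`
(e.g. `(N.comap (LinearMap.lsmul O M (π ^ r))).comap V.subtype : Submodule O V`) form an increasing chain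
(`π ^ (r+1) • v = π • π ^ r • v`), which stabilises at some `a` (`monotone_stabilizes_iff_noetherian`).
For `ξ = ν + v` (`Submodule.mem_sup`) with `π ^ r • ξ ∈ N`: `π ^ r • v ∈ N`, so `v ∈ V_r ≤ V_(max r a) = V_a`,
`π ^ a • v ∈ N`, `π ^ a • ξ ∈ N`. -/
theorem exists_bound_torsion {M : Type*} [AddCommGroup M] [Module O M] [IsNoetherianRing O] (π : O)
    (N V : Submodule O M) (hV : V.FG) :
    ∃ a : ℕ, ∀ ξ ∈ N ⊔ V, ∀ r : ℕ, π ^ r • ξ ∈ N → π ^ a • ξ ∈ N := by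
  have hnoeth : IsNoetherian O V := isNoetherian_of_fg_of_noetherian V hV
  let W : ℕ → Submodule O V := fun r => (N.comap (LinearMap.lsmul O M (π ^ r))).comap V.subtype
  have hW : ∀ r (v : V), v ∈ W r ↔ π ^ r • (v : M) ∈ N := fun r v => Iff.rfl
  have hmono : Monotone W := by
    refine monotone_nat_of_le_succ fun r v hv => ?_
    rw [hW] at hv ⊢
    rw [pow_succ', mul_smul]
    exact N.smul_mem π hv
  obtain ⟨a, ha⟩ := monotone_stabilizes_iff_noetherian.mpr hnoeth ⟨W, hmono⟩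
  refine ⟨a, fun ξ hξ r hr => ?_⟩
  obtain ⟨ν, hν, v, hv, rfl⟩ := Submodule.mem_sup.1 hξ
  have h1 : π ^ r • v ∈ N := by
    have : π ^ r • v = π ^ r • (ν + v) - π ^ r • ν := by rw [smul_add, add_sub_cancel_left]
    rw [this]
    exact sub_mem hr (N.smul_mem _ hν)
  have h2 : (⟨v, hv⟩ : V) ∈ W (max r a) := hmono (le_max_left r a) ((hW r ⟨v, hv⟩).2 h1)
  have h3 : (⟨v, hv⟩ : V) ∈ W a := by
    have := ha (max r a) (le_max_right r a)
    change W a = W (max r a) at this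
    rw [this]; exact h2
  rw [smul_add]
  exact add_mem (N.smul_mem _ hν) ((hW a ⟨v, hv⟩).1 h3)

/-- the data of a "coherent sheaf on `P¹_O`" inside `F`. -/
structure CechData (c : F) (M₀ M₁ : Submodule O F) : Prop where
  mul₀ : ∀ g ∈ M₀, c * g ∈ M₀
  mul₁ : ∀ g ∈ M₁, c⁻¹ * g ∈ M₁
  fg₀ : ∃ u : Finset F, (∀ x ∈ u, x ∈ M₀) ∧
    M₀ ≤ Submodule.span O {y | ∃ (j : ℕ) (x : F), x ∈ u ∧ y = c ^ j * x}
  shift₀ : ∀ g ∈ M₀, ∃ d : ℕ, c⁻¹ ^ d * g ∈ M₁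
  shift₁ : ∀ g ∈ M₁, ∃ d : ℕ, c ^ d * g ∈ M₀

/-- **Leaf T2.** `M₀₁ = ⋃ c ^ (-k) M₀ ⊆ (M₀ + M₁) + V` with `V` finitely generated over `O`.
PROOF. `u` from `h.fg₀`; `d` with `c⁻¹ ^ d * x ∈ M₁` for all `x ∈ u` (`h.shift₀`, take the sup over the finset
`u` and use `h.mul₁` to increase the exponent).  `V := span O {c⁻¹ ^ b * x | b < d, x ∈ u}` (image of the finset
`Finset.range d ×ˢ u`, so `FG` by `Submodule.fg_span (Set.Finite...)`).
Claim: for all `j k : ℕ`, `x ∈ u`: `c⁻¹ ^ k * (c ^ j * x) ∈ (M₀ ⊔ M₁) ⊔ V`: if `k ≤ j` it is `c ^ (j-k) * x ∈ M₀`;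
if `j < k`, it is `c⁻¹ ^ (k-j) * x`, in `V` if `k - j < d`, and `= c⁻¹ ^ (k-j-d) * (c⁻¹ ^ d * x) ∈ M₁` otherwise.
Then `g ∈ M₀ ≤ span ...`: `Submodule.span_induction` (multiplication by `c⁻¹ ^ k` is `O`-linear:
`LinearMap.mulLeft O (c⁻¹ ^ k)` and `Submodule.span_le`/`Submodule.map_span`). -/
theorem exists_fg_complement {c : F} (hc : c ≠ 0) {M₀ M₁ : Submodule O F} (h : CechData c M₀ M₁) :
    ∃ V : Submodule O F, V.FG ∧ ∀ g ∈ M₀, ∀ k : ℕ, c⁻¹ ^ k * g ∈ (M₀ ⊔ M₁) ⊔ V := by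
  classical
  obtain ⟨u, hu, hspan⟩ := h.fg₀
  have hM₀ : ∀ (k : ℕ), ∀ y ∈ M₀, c ^ k * y ∈ M₀ := by
    intro k
    induction k with
    | zero => intro y hy; simpa using hy
    | succ k ih => intro y hy; rw [pow_succ', mul_assoc]; exact h.mul₀ _ (ih y hy)
  have hM₁ : ∀ (k : ℕ), ∀ y ∈ M₁, c⁻¹ ^ k * y ∈ M₁ := by
    intro k
    induction k with
    | zero => intro y hy; simpa using hy
    | succ k ih => intro y hy; rw [pow_succ', mul_assoc]; exact h.mul₁ _ (ih y hy)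
  -- a uniform shift
  have hd : ∀ x : F, ∃ d : ℕ, x ∈ u → c⁻¹ ^ d * x ∈ M₁ := by
    intro x
    by_cases hx : x ∈ u
    · obtain ⟨d, hd⟩ := h.shift₀ x (hu x hx)
      exact ⟨d, fun _ => hd⟩
    · exact ⟨0, fun h => absurd h hx⟩
  choose D hD using hd
  let d : ℕ := u.sup D
  have hdu : ∀ x ∈ u, ∀ e : ℕ, d ≤ e → c⁻¹ ^ e * x ∈ M₁ := by
    intro x hx e he
    have h1 : D x ≤ e := (Finset.le_sup hx).trans he
    obtain ⟨m, rfl⟩ := Nat.exists_eq_add_of_le h1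
    rw [add_comm, pow_add, mul_assoc]
    exact hM₁ m _ (hD x hx)
  let S : Finset F := (Finset.range d ×ˢ u).image (fun p => c⁻¹ ^ p.1 * p.2)
  refine ⟨Submodule.span O (S : Set F), Submodule.fg_span S.finite_toSet, fun g hg k => ?_⟩
  have hclaim : ∀ (j : ℕ) (x : F), x ∈ u →
      c⁻¹ ^ k * (c ^ j * x) ∈ (M₀ ⊔ M₁) ⊔ Submodule.span O (S : Set F) := by
    intro j x hx
    rcases le_or_gt k j with hkj | hkj
    · obtain ⟨m, rfl⟩ := Nat.exists_eq_add_of_le hkj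
      have : c⁻¹ ^ k * (c ^ (k + m) * x) = c ^ m * x := by
        rw [pow_add, ← mul_assoc, ← mul_assoc, ← mul_pow, inv_mul_cancel₀ hc, one_pow, one_mul]
      rw [this]
      exact Submodule.mem_sup_left (Submodule.mem_sup_left (hM₀ m x (hu x hx)))
    · obtain ⟨m, rfl⟩ := Nat.exists_eq_add_of_le hkj.le
      have : c⁻¹ ^ (j + m) * (c ^ j * x) = c⁻¹ ^ m * x := by
        rw [pow_add, mul_comm (c⁻¹ ^ j), mul_assoc, ← mul_assoc (c⁻¹ ^ j), ← mul_pow,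
          inv_mul_cancel₀ hc, one_pow, one_mul]
      rw [this]
      rcases lt_or_ge m d with hmd | hmd
      · apply Submodule.mem_sup_right
        apply Submodule.subset_span
        exact Finset.mem_coe.mpr (Finset.mem_image.mpr
          ⟨(m, x), Finset.mem_product.mpr ⟨Finset.mem_range.mpr hmd, hx⟩, rfl⟩)
      · exact Submodule.mem_sup_left (Submodule.mem_sup_right (hdu x hx m hmd))
  have hle : Submodule.span O {y | ∃ (j : ℕ) (x : F), x ∈ u ∧ y = c ^ j * x} ≤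
      ((M₀ ⊔ M₁) ⊔ Submodule.span O (S : Set F)).comap (LinearMap.mulLeft O (c⁻¹ ^ k)) := by
    rw [Submodule.span_le]
    rintro _ ⟨j, x, hx, rfl⟩
    exact hclaim j x hx
  exact hle (hspan hg)

/-- **Block T (Čech).**  `T` plays the role of `Õ`. -/
theorem cech_bounded [IsNoetherianRing O] (π : O) {c : F} (hc : c ≠ 0) {M₀ M₁ : Submodule O F}
    (h : CechData c M₀ M₁) (T : Submodule O F) (hT : ∀ z ∈ T, c * z ∈ T)
    (sat₀ : ∀ z ∈ T, π • z ∈ M₀ → z ∈ M₀) :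
    ∃ a : ℕ, ∀ (r : ℕ), ∀ f₀ ∈ M₀, ∀ f₁ ∈ M₁, ∀ z ∈ T, f₀ - f₁ = π ^ (r + a) • z →
      ∃ g₀ ∈ M₀, ∃ g₁ ∈ M₁, f₀ - π ^ r • g₀ = f₁ - π ^ r • g₁ := by
  obtain ⟨V, hV, hVc⟩ := exists_fg_complement hc h
  obtain ⟨a, ha⟩ := exists_bound_torsion π (M₀ ⊔ M₁) V hV
  refine ⟨a, fun r f₀ hf₀ f₁ hf₁ z hz e => ?_⟩
  -- iterate the stability properties
  have hT' : ∀ (k : ℕ), ∀ y ∈ T, c ^ k * y ∈ T := by
    intro k
    induction k with
    | zero => intro y hy; simpa using hy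
    | succ k ih => intro y hy; rw [pow_succ', mul_assoc]; exact hT _ (ih y hy)
  have hM' : ∀ (k : ℕ), ∀ y ∈ M₀, c ^ k * y ∈ M₀ := by
    intro k
    induction k with
    | zero => intro y hy; simpa using hy
    | succ k ih => intro y hy; rw [pow_succ', mul_assoc]; exact h.mul₀ _ (ih y hy)
  have hsat : ∀ (k : ℕ), ∀ y ∈ T, π ^ k • y ∈ M₀ → y ∈ M₀ := by
    intro k
    induction k with
    | zero => intro y _ hy'; simpa using hy'
    | succ k ih =>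
      intro y hy hy'
      apply ih y hy
      apply sat₀ _ (T.smul_mem _ hy)
      rwa [smul_smul, ← pow_succ']
  obtain ⟨d, hd⟩ := h.shift₁ f₁ hf₁
  have h1 : c ^ d * z ∈ M₀ := by
    apply hsat (r + a) _ (hT' d z hz)
    have : π ^ (r + a) • (c ^ d * z) = c ^ d * f₀ - c ^ d * f₁ := by
      rw [← mul_sub, e, mul_smul_comm]
    rw [this]
    exact sub_mem (hM' d _ hf₀) hd
  have h2 : z ∈ (M₀ ⊔ M₁) ⊔ V := by
    have := hVc _ h1 d
    rwa [← mul_assoc, ← mul_pow, inv_mul_cancel₀ hc, one_pow, one_mul] at this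
  have h3 : π ^ a • z ∈ M₀ ⊔ M₁ := by
    apply ha z h2 (r + a)
    rw [← e]
    exact sub_mem (Submodule.mem_sup_left hf₀) (Submodule.mem_sup_right hf₁)
  obtain ⟨g₀, hg₀, g₁, hg₁, e'⟩ := Submodule.mem_sup.1 h3
  refine ⟨g₀, hg₀, -g₁, neg_mem hg₁, ?_⟩
  have : f₀ - f₁ = π ^ r • (g₀ + g₁) := by rw [e, e', smul_smul, pow_add]
  rw [smul_add] at this
  rw [smul_neg]
  linear_combination this

/-- **Block T, final form.** approximations in both charts of the same `s ∉ π T` give a nonzero global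
section. -/
theorem cech_glue [IsNoetherianRing O] (π : O) {c : F} (hc : c ≠ 0) {M₀ M₁ : Submodule O F}
    (h : CechData c M₀ M₁) (T : Submodule O F) (hT : ∀ z ∈ T, c * z ∈ T)
    (sat₀ : ∀ z ∈ T, π • z ∈ M₀ → z ∈ M₀) (hM₀ : M₀ ≤ T)
    (H : ∀ r : ℕ, ∃ s : F, (∀ z ∈ T, s ≠ π • z) ∧
      (∃ g ∈ M₀, ∃ z ∈ T, s = g + π ^ r • z) ∧ (∃ g ∈ M₁, ∃ z ∈ T, s = g + π ^ r • z)) :
    ∃ Φ : F, Φ ≠ 0 ∧ Φ ∈ M₀ ∧ Φ ∈ M₁ := by
  obtain ⟨a, ha⟩ := cech_bounded π hc h T hT sat₀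
  obtain ⟨s, hs, ⟨f₀, hf₀, z₀, hz₀, e₀⟩, ⟨f₁, hf₁, z₁, hz₁, e₁⟩⟩ := H (1 + a)
  have e : f₀ - f₁ = π ^ (1 + a) • (z₁ - z₀) := by
    rw [smul_sub]; linear_combination e₁ - e₀
  obtain ⟨g₀, hg₀, g₁, hg₁, e'⟩ := ha 1 f₀ hf₀ f₁ hf₁ _ (sub_mem hz₁ hz₀) e
  refine ⟨f₀ - π ^ 1 • g₀, ?_, sub_mem hf₀ (M₀.smul_mem _ hg₀), ?_⟩
  · intro h0
    apply hs (g₀ + π ^ a • z₀) (add_mem (hM₀ hg₀) (T.smul_mem _ hz₀))
    rw [smul_add, smul_smul, ← pow_succ', e₀, add_comm a 1]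
    rw [pow_one] at h0
    linear_combination (exp := 1) h0
  · rw [e']; exact sub_mem hf₁ (M₁.smul_mem _ hg₁)

end Fermat.Agent.S36R.Inj
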