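import Fermat.Agent.S36R.Inj.Cech

/-!
# S36 route R, block (7) `INJ_reg`: the modules `M_{R₀}(f,n)`, `M_{R₁}(f,n)` form a `CechData`
-/

set_option autoImplicit false
set_option maxHeartbeats 400000

namespace Fermat.Agent.S36R.Inj

variable {O : Type*} [CommRing O] {F : Type*} [Field F] [Algebra O F] {ι : Type*}

theorem CechRoot_span_stable (c : F) (u : Finset F) (a : Algebra.adjoin O {c}) (y : F)
    (hy : y ∈ Submodule.span O {y | ∃ (j : ℕ) (x : F), x ∈ u ∧ y = c ^ j * x}) :
    (a : F) * y ∈ Submodule.span O {y | ∃ (j : ℕ) (x : F), x ∈ u ∧ y = c ^ j * x} := by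
  set Λ := Submodule.span O {y | ∃ (j : ℕ) (x : F), x ∈ u ∧ y = c ^ j * x} with hΛ
  have hc : ∀ y ∈ Λ, c * y ∈ Λ := by
    intro y hy
    induction hy using Submodule.span_induction with
    | mem y hy =>
      obtain ⟨j, x, hx, rfl⟩ := hy
      exact Submodule.subset_span ⟨j + 1, x, hx, by ring⟩
    | zero => simp
    | add y z _ _ hy hz => rw [mul_add]; exact add_mem hy hz
    | smul r y _ hy => rw [mul_smul_comm]; exact Λ.smul_mem r hy
  obtain ⟨a, ha⟩ := a
  show a * y ∈ Λ
  induction ha using Algebra.adjoin_induction generalizing y with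
  | mem x hx =>
    rw [Set.mem_singleton_iff] at hx
    subst hx
    exact hc y hy
  | algebraMap r => rw [← Algebra.smul_def]; exact Λ.smul_mem r hy
  | add p q _ _ hp hq => rw [add_mul]; exact add_mem (hp y hy) (hq y hy)
  | mul p q _ _ hp hq => rw [mul_assoc]; exact hp _ (hq y hy)

/-- **Leaf FG.** an `O[c]`-submodule of a finitely generated `O[c]`-module is finitely generated.
PROOF. `S := Algebra.adjoin O {c}` is a noetherian ring (`isNoetherianRing_of_fg` with
`Subalgebra.fg_adjoin_finset {c}` / `Algebra.adjoin` of a finite set; or as the range of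
`Polynomial.aeval c`, `Algebra.adjoin_singleton_eq_range_aeval`).  `F` is an `S`-module.
`M_S : Submodule S F` with carrier `M` (`smul_mem`: `Algebra.adjoin_induction` on the scalar, using `hmul` and
`M.smul_mem`).  `span S u0` is a noetherian `S`-module (`isNoetherian_span_of_finite`), so its submodule
`M_S.map (LinearMap.mulLeft S b)` (`≤ span S u0` by `hM`) is `FG`; multiplication by `b⁻¹` maps it onto `M_S`
(`Submodule.FG.map`), so `M_S = span S u` with `u` a finset (`Submodule.fg_def`/`Submodule.FG`), `u ⊆ M`.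
Finally `span S u ⊆ span O {c ^ j * x}`: `Submodule.span_induction`; for the `smul` step show that the `O`-span
`Λ` of `{c ^ j * x}` is stable under multiplication by `S` (`Algebra.adjoin_induction`; stability under `c`:
`Submodule.span_induction`, `c * (c ^ j * x) = c ^ (j+1) * x`). -/
theorem exists_generators [IsNoetherianRing O] (c : F) (M : Submodule O F)
    (hmul : ∀ g ∈ M, c * g ∈ M) (u0 : Finset F) (b : F) (hb : b ≠ 0)
    (hM : ∀ z ∈ M, b * z ∈ Submodule.span (Algebra.adjoin O {c}) (u0 : Set F)) :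
    ∃ u : Finset F, (∀ x ∈ u, x ∈ M) ∧
      M ≤ Submodule.span O {y | ∃ (j : ℕ) (x : F), x ∈ u ∧ y = c ^ j * x} := by
  classical
  set S := Algebra.adjoin O ({c} : Set F) with hS
  haveI : IsNoetherianRing S := by
    apply isNoetherianRing_of_fg
    exact ⟨{c}, by simp [hS]⟩
  -- `M` as an `S`-module
  have hSM : ∀ (a : S) (y : F), y ∈ M → (a : F) * y ∈ M := by
    rintro ⟨a, ha⟩ y hy
    show a * y ∈ M
    induction ha using Algebra.adjoin_induction generalizing y with
    | mem x hx =>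
      rw [Set.mem_singleton_iff] at hx
      subst hx
      exact hmul y hy
    | algebraMap r => rw [← Algebra.smul_def]; exact M.smul_mem r hy
    | add p q _ _ hp hq => rw [add_mul]; exact add_mem (hp y hy) (hq y hy)
    | mul p q _ _ hp hq => rw [mul_assoc]; exact hp _ (hq y hy)
  let MS : Submodule S F :=
    { carrier := M
      add_mem' := fun ha hb => M.add_mem ha hb
      zero_mem' := M.zero_mem
      smul_mem' := fun a y hy => hSM a y hy }
  haveI : IsNoetherian S (Submodule.span S (u0 : Set F)) :=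
    isNoetherian_span_of_finite S (Finset.finite_toSet u0)
  have h1 : MS.map (LinearMap.mulLeft S b) ≤ Submodule.span S (u0 : Set F) := by
    rintro _ ⟨z, hz, rfl⟩
    exact hM z hz
  have h2 : (MS.map (LinearMap.mulLeft S b)).FG := by
    have := isNoetherian_of_le h1
    exact (Submodule.fg_top _).1 (this.noetherian ⊤)
  have h3 : (MS.map (LinearMap.mulLeft S b)).map (LinearMap.mulLeft S b⁻¹) = MS := by
    rw [← Submodule.map_comp]
    have : (LinearMap.mulLeft S b⁻¹) ∘ₗ (LinearMap.mulLeft S b) = LinearMap.id := by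
      ext z
      simp [hb]
    rw [this, Submodule.map_id]
  have h4 : MS.FG := h3 ▸ h2.map _
  obtain ⟨u, hu⟩ := h4
  refine ⟨u, fun x hx => ?_, fun z hz => ?_⟩
  · have : x ∈ MS := hu ▸ Submodule.subset_span hx
    exact this
  · have hz' : z ∈ Submodule.span S (u : Set F) := by rw [hu]; exact hz
    clear hz
    induction hz' using Submodule.span_induction with
    | mem y hy => exact Submodule.subset_span ⟨0, y, hy, by simp⟩
    | zero => exact zero_mem _
    | add y z _ _ hy hz => exact add_mem hy hz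
    | smul a y _ hy => exact CechRoot_span_stable c u a y hy

/-- **Leaf SH.** shifting a section to the other chart.
PROOF. `g ^ n / f ∈ R`, so `d ^ k * (g ^ n / f) ∈ R'` for some `k`; then
`(d ^ k * g) ^ n / f = (d ^ k) ^ (n-1) * (d ^ k * (g ^ n / f)) ∈ R'` (`d ∈ R'`, `n = (n-1)+1`). -/
theorem exists_shift_rootMod {π : O} {W : ι → ValuationSubring F} {c d : F} {R R' : Subring F}
    (h : Chart π W c R) (h' : Chart π W d R') (sh : ∀ z ∈ R, ∃ k : ℕ, d ^ k * z ∈ R')
    {n : ℕ} (hn : 0 < n) {f g : F} (hg : g ∈ rootMod h n hn f) :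
    ∃ k : ℕ, d ^ k * g ∈ rootMod h' n hn f := by
  obtain ⟨k, hk⟩ := sh _ ((mem_rootMod h hn).1 hg)
  refine ⟨k, (mem_rootMod h' hn).2 ?_⟩
  obtain ⟨m, rfl⟩ : ∃ m, n = m + 1 := ⟨n - 1, by omega⟩
  have : (d ^ k * g) ^ (m + 1) * f⁻¹ = (d ^ k) ^ m * (d ^ k * (g ^ (m + 1) * f⁻¹)) := by ring
  rw [this]
  exact mul_mem (pow_mem (pow_mem h'.c_mem k) m) hk

/-- **Block CR.** -/
theorem cechData_rootMod [IsNoetherianRing O] {π : O} {W : ι → ValuationSubring F} {c : F}
    {R₀ R₁ : Subring F} (h₀ : Chart π W c R₀) (h₁ : Chart π W c⁻¹ R₁)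
    (sh₀ : ∀ z ∈ R₀, ∃ k : ℕ, c⁻¹ ^ k * z ∈ R₁) (sh₁ : ∀ z ∈ R₁, ∃ k : ℕ, c ^ k * z ∈ R₀)
    {n : ℕ} (hn : 0 < n) {f : F} (hf0 : f ≠ 0) :
    CechData c (rootMod h₀ n hn f) (rootMod h₁ n hn f) where
  mul₀ g hg := mul_mem_rootMod h₀ hn h₀.c_mem hg
  mul₁ g hg := mul_mem_rootMod h₁ hn h₁.c_mem hg
  fg₀ := by
    obtain ⟨u0, hu0⟩ := h₀.finite
    obtain ⟨b, _, hb0, hb⟩ := exists_clear_rootMod h₀ hn hf0
    exact exists_generators c _ (fun g hg => mul_mem_rootMod h₀ hn h₀.c_mem hg) u0 b hb0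
      (fun z hz => hu0 _ (hb z hz))
  shift₀ g hg := exists_shift_rootMod h₀ h₁ sh₀ hn hg
  shift₁ g hg := exists_shift_rootMod h₁ h₀ sh₁ hn hg

end Fermat.Agent.S36R.Inj
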