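import Fermat.Agent.S36R.Inj.RootMod

/-!
# S36 route R, block (7) `INJ_reg`: the local claim and the passage local ⟹ global on one chart
-/

set_option autoImplicit false
set_option maxHeartbeats 400000

namespace Fermat.Agent.S36R.Inj

variable {O : Type*} [CommRing O] {F : Type*} [Field F] [Algebra O F] {ι : Type*}

/-- the component `W i` passes through the point `𝔫` of the chart `R`: the centre of `W i` is contained
in `𝔫`. -/
def Thru (W : ι → ValuationSubring F) {R : Subring F} (𝔫 : Ideal R) (i : ι) : Prop :=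
  ∀ x : R, (W i).valuation (x : F) < 1 → x ∈ 𝔫

/-- **The local hypothesis (form (b)).** At every closed point `𝔫` of the special fibre of the chart `R`:
`f = ε g ^ n` with `ε = t / s` a unit at `𝔫`, and `g ≡ h` on every component through `𝔫`. -/
def LocalRoot (π : O) (W : ι → ValuationSubring F) (R : Subring F) (n : ℕ) (f h : F) : Prop :=
  ∀ 𝔫 : Ideal R, 𝔫.IsMaximal → (∀ x : R, (x : F) = algebraMap O F π → x ∈ 𝔫) →
    ∃ g : F, g ≠ 0 ∧ (∃ s t : R, s ∉ 𝔫 ∧ t ∉ 𝔫 ∧ f * s = g ^ n * t) ∧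
      ∀ i, Thru W 𝔫 i → (W i).valuation (h - g) < 1

section

variable {π : O} {W : ι → ValuationSubring F} {c : F} {R : Subring F} (hR : Chart π W c R)
  {n : ℕ} (hn : 0 < n) {f : F}

/-- the localisation of `R` at `𝔫`, as a subring of `F`. -/
def locAt {R : Subring F} (𝔫 : Ideal R) [𝔫.IsPrime] : Subring F where
  carrier := {z | ∃ s : R, s ∉ 𝔫 ∧ (s : F) * z ∈ R}
  mul_mem' := by
    rintro a b ⟨s, hs, ha⟩ ⟨t, ht, hb⟩
    refine ⟨s * t, Ideal.IsPrime.mul_notMem ‹_› hs ht, ?_⟩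
    have : ((s * t : R) : F) * (a * b) = (s * a) * (t * b) := by push_cast; ring
    rw [this]; exact mul_mem ha hb
  one_mem' := ⟨1, (Ideal.ne_top_iff_one 𝔫).1 (Ideal.IsPrime.ne_top ‹_›), by simp⟩
  add_mem' := by
    rintro a b ⟨s, hs, ha⟩ ⟨t, ht, hb⟩
    refine ⟨s * t, Ideal.IsPrime.mul_notMem ‹_› hs ht, ?_⟩
    have : ((s * t : R) : F) * (a + b) = t * (s * a) + s * (t * b) := by push_cast; ring
    rw [this]; exact add_mem (mul_mem t.2 ha) (mul_mem s.2 hb)
  zero_mem' := ⟨1, (Ideal.ne_top_iff_one 𝔫).1 (Ideal.IsPrime.ne_top ‹_›), by simp⟩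
  neg_mem' := by
    rintro a ⟨s, hs, ha⟩
    exact ⟨s, hs, by rw [mul_neg]; exact neg_mem ha⟩

theorem mem_locAt {R : Subring F} {𝔫 : Ideal R} [𝔫.IsPrime] {z : F} :
    z ∈ locAt 𝔫 ↔ ∃ s : R, s ∉ 𝔫 ∧ (s : F) * z ∈ R := Iff.rfl

theorem le_locAt {R : Subring F} (𝔫 : Ideal R) [𝔫.IsPrime] : R ≤ locAt 𝔫 := fun z hz =>
  ⟨1, (Ideal.ne_top_iff_one 𝔫).1 (Ideal.IsPrime.ne_top ‹_›), by simpa using hz⟩

/-- fractions with denominator outside `𝔫`. -/
theorem div_mem_locAt {R : Subring F} (𝔫 : Ideal R) [𝔫.IsPrime] (t s : R) (hs : s ∉ 𝔫) :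
    (t : F) * (s : F)⁻¹ ∈ locAt 𝔫 := by
  refine ⟨s, hs, ?_⟩
  have hs0 : (s : F) ≠ 0 := by
    intro h0
    apply hs
    have : s = 0 := Subtype.ext h0
    rw [this]; exact zero_mem _
  have : (s : F) * ((t : F) * (s : F)⁻¹) = t := by field_simp
  rw [this]; exact t.2

/-- **Leaf L1.** the approximate root centred at `g` is a local section of `M` at `𝔫`.
PROOF. `ε := f / g ^ n = t / s` and `ε⁻¹ = s / t` are in `A := locAt 𝔫` (`div_mem_locAt`; `s, t ≠ 0` in `F`
since they are not in `𝔫`).  `(n : F)⁻¹ ∈ R ≤ A`: it is `algebraMap O F ↑(hnO.unit⁻¹)`.  So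
`y := apx n (f * (g ^ n)⁻¹) m ∈ A` (`apx_mem`), and `(g y) ^ n / f = y ^ n * ε⁻¹ ∈ A`: there is `a ∉ 𝔫` with
`a * (y ^ n ε⁻¹) ∈ R`; then `(a * (g y)) ^ n / f = a ^ (n-1) * (a * (y ^ n ε⁻¹)) ∈ R`. -/
theorem exists_mul_sApx_mem (hnO : IsUnit (n : O)) (𝔫 : Ideal R) [𝔫.IsPrime] {g : F} (hg : g ≠ 0)
    {s t : R} (hs : s ∉ 𝔫) (ht : t ∉ 𝔫) (hfg : f * s = g ^ n * t) (m : ℕ) :
    ∃ a : R, a ∉ 𝔫 ∧ (a : F) * sApx n f g m ∈ rootMod hR n hn f := by
  have hne : ∀ x : R, x ∉ 𝔫 → (x : F) ≠ 0 := by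
    intro x hx h0
    apply hx
    have : x = 0 := Subtype.ext h0
    rw [this]; exact zero_mem _
  have hs0 := hne s hs
  have ht0 := hne t ht
  have hgn : g ^ n ≠ 0 := pow_ne_zero _ hg
  have hf0 : f ≠ 0 := by
    rintro rfl
    rw [zero_mul] at hfg
    exact mul_ne_zero hgn ht0 hfg.symm
  have hε : f * (g ^ n)⁻¹ = (t : F) * (s : F)⁻¹ := by
    field_simp
    exact hfg
  have hε' : g ^ n * f⁻¹ = (s : F) * (t : F)⁻¹ := by
    field_simp
    exact hfg.symm
  have hninv : (n : F)⁻¹ ∈ locAt 𝔫 := by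
    apply le_locAt 𝔫
    obtain ⟨u, hu⟩ := hnO
    have h1 : (n : F) * algebraMap O F ((u⁻¹ : Oˣ) : O) = 1 := by
      rw [← map_natCast (algebraMap O F), ← hu, ← map_mul, Units.mul_inv, map_one]
    have h2 : (n : F)⁻¹ = algebraMap O F ((u⁻¹ : Oˣ) : O) := inv_eq_of_mul_eq_one_right h1
    rw [h2]
    exact hR.algebraMap_mem _
  have hy : apx n (f * (g ^ n)⁻¹) m ∈ locAt 𝔫 :=
    apx_mem (locAt 𝔫) n _ hninv (by rw [hε]; exact div_mem_locAt 𝔫 t s hs) m
  have hy2 : apx n (f * (g ^ n)⁻¹) m ^ n * ((s : F) * (t : F)⁻¹) ∈ locAt 𝔫 :=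
    mul_mem (pow_mem hy n) (div_mem_locAt 𝔫 s t ht)
  obtain ⟨a, ha, haR⟩ := hy2
  refine ⟨a, ha, ?_⟩
  rw [mem_rootMod]
  have hpow : (a : F) ^ n = (a : F) ^ (n - 1) * a := (pow_sub_one_mul hn.ne' _).symm
  have key : ((a : F) * sApx n f g m) ^ n * f⁻¹ =
      (a : F) ^ (n - 1) * ((a : F) * (apx n (f * (g ^ n)⁻¹) m ^ n * ((s : F) * (t : F)⁻¹))) := by
    rw [← hε']
    unfold sApx
    rw [mul_pow, mul_pow, hpow]
    ring
  rw [key]
  exact mul_mem (pow_mem a.2 _) haR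

include hR in
/-- **Leaf L2.** an element of `R` outside `𝔫` which is divisible by `π ^ r` on all the components which do
not pass through `𝔫`.
PROOF. For `i` not through `𝔫` choose `x i : R`, `v_i (x i) < 1`, `x i ∉ 𝔫` (`Thru`, `not_forall`); for the other
`i` put `x i = 1`.  `a := ∏ i, x i ^ (E * r)` (`Fintype` from `Finite`: `Fintype.ofFinite`/`cases nonempty_fintype ι`).
`a ∉ 𝔫` (`Ideal.IsPrime.prod_mem_iff`/`Ideal.IsPrime.pow_mem_iff_mem`...).  For `i` not through `𝔫`: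
`v_i a ≤ v_i (x i) ^ (E r) = (v_i (x i) ^ E) ^ r ≤ v_i π ^ r` (all other factors are in `R ⊆ W i`, so have `v_i ≤ 1`:
`Finset.mul_prod_erase`). -/
theorem exists_vanish_off [Finite ι] {E : ℕ} (hV : Vert π W E) (𝔫 : Ideal R) [𝔫.IsPrime] (r : ℕ) :
    ∃ a : R, a ∉ 𝔫 ∧ ∀ i, ¬ Thru W 𝔫 i →
      (W i).valuation (a : F) ≤ (W i).valuation (algebraMap O F π) ^ r := by
  classical
  cases nonempty_fintype ι
  have key : ∀ i, ∃ x : R, x ∉ 𝔫 ∧ (¬ Thru W 𝔫 i → (W i).valuation (x : F) < 1) := by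
    intro i
    by_cases h : Thru W 𝔫 i
    · exact ⟨1, (Ideal.ne_top_iff_one 𝔫).1 (Ideal.IsPrime.ne_top ‹_›), fun h' => absurd h h'⟩
    · have h' := h
      unfold Thru at h'
      push Not at h'
      obtain ⟨x, hx, hxn⟩ := h'
      exact ⟨x, hxn, fun _ => hx⟩
  choose x hx hx' using key
  refine ⟨∏ i, x i ^ (E * r), ?_, ?_⟩
  · intro hmem
    obtain ⟨i, -, hi⟩ := (Ideal.IsPrime.prod_mem_iff).1 hmem
    exact hx i (Ideal.IsPrime.mem_of_pow_mem ‹_› _ hi)
  · intro i hi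
    rw [← Finset.mul_prod_erase Finset.univ _ (Finset.mem_univ i), Subring.coe_mul, map_mul]
    have h1 : (W i).valuation ((∏ j ∈ Finset.univ.erase i, x j ^ (E * r) : R) : F) ≤ 1 :=
      (ValuationSubring.valuation_le_one_iff _ _).2 (hR.le_W i _ (Subtype.property _))
    calc (W i).valuation ((x i ^ (E * r) : R) : F) *
          (W i).valuation ((∏ j ∈ Finset.univ.erase i, x j ^ (E * r) : R) : F)
        ≤ (W i).valuation ((x i ^ (E * r) : R) : F) * 1 := by gcongr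
      _ = ((W i).valuation (x i : F) ^ E) ^ r := by
        rw [mul_one, Subring.coe_pow, map_pow, pow_mul]
      _ ≤ (W i).valuation (algebraMap O F π) ^ r :=
        pow_le_pow_left₀ zero_le (hV.disc i _ (hx' i hi)) r

include hR in
/-- `n` is a unit of every `W i`. -/
theorem Local_val_natCast (hnO : IsUnit (n : O)) (i : ι) : (W i).valuation (n : F) = 1 := by
  obtain ⟨u, hu⟩ := hnO
  have h1 : (W i).valuation (algebraMap O F (u : O)) ≤ 1 :=
    (ValuationSubring.valuation_le_one_iff _ _).2 (hR.algebraMap_mem_W _ i)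
  have h2 : (W i).valuation (algebraMap O F ((u⁻¹ : Oˣ) : O)) ≤ 1 :=
    (ValuationSubring.valuation_le_one_iff _ _).2 (hR.algebraMap_mem_W _ i)
  have h3 : (W i).valuation (algebraMap O F (u : O)) *
      (W i).valuation (algebraMap O F ((u⁻¹ : Oˣ) : O)) = 1 := by
    rw [← map_mul, ← map_mul, Units.mul_inv, map_one, map_one]
  have h4 : (W i).valuation (algebraMap O F (u : O)) = 1 := by
    refine le_antisymm h1 ?_
    calc (1 : (W i).ValueGroup) = _ := h3.symm
      _ ≤ (W i).valuation (algebraMap O F (u : O)) * 1 := by gcongr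
      _ = _ := mul_one _
  rw [hu, map_natCast] at h4
  exact h4

/-- **Leaf L3 (local claim).**
PROOF. `a₂` from `exists_mul_sApx_mem` (with `m = E * r`), `a₁` from `exists_vanish_off`; `a := a₁ * a₂`,
`y := a₁ * (a₂ * sApx n f g (E r)) ∈ M` (`mul_mem_rootMod`), `z := (a * sApx n f h (E r) - y) / π ^ r`.
To show: `v_i (a₁ a₂ (sApx h - sApx g)) ≤ v_i π ^ r` for all `i` (then `z ∈ W i` by
`ValuationSubring.valuation_le_one_iff`, `map_div₀`, `div_le_one₀`; `π ≠ 0` in `F` by `hV.pi_ne`).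
* `i` through `𝔫`: `sApx_congr (W i).valuation` (`v_i (n : F) = 1` because `n` is a unit of `O` and `O → W i`:
  both `n` and its inverse have `v_i ≤ 1`), `v_i a ≤ 1`.
* `i` not through `𝔫`: `v_i a₁ ≤ v_i π ^ r`; `v_i (a₂ * sApx h) ≤ 1` (`sApx_spec`: `v_i (sApx h - h) < 1`, `v_i h = 1`);
  `v_i (a₂ * sApx g) ≤ 1` by `rootMod_le_W`. -/
theorem local_claim [Finite ι] {E : ℕ} (hV : Vert π W E) (hnO : IsUnit (n : O)) {h : F}
    (hf : ∀ i, (W i).valuation f = 1) (hh : ∀ i, (W i).valuation (f - h ^ n) < 1)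
    (𝔫 : Ideal R) [𝔫.IsPrime] {g : F} (hg : g ≠ 0) {s t : R} (hs : s ∉ 𝔫) (ht : t ∉ 𝔫)
    (hfg : f * s = g ^ n * t) (hgh : ∀ i, Thru W 𝔫 i → (W i).valuation (h - g) < 1) (r : ℕ) :
    ∃ a : R, a ∉ 𝔫 ∧ ∃ y ∈ rootMod hR n hn f, ∃ z : F, (∀ i, z ∈ W i) ∧
      (a : F) * sApx n f h (E * r) = y + algebraMap O F π ^ r * z := by
  obtain ⟨a₂, ha₂, hy₂⟩ := exists_mul_sApx_mem hR hn hnO 𝔫 hg hs ht hfg (E * r)
  obtain ⟨a₁, ha₁, hv₁⟩ := exists_vanish_off hR hV 𝔫 r
  have hϖ : algebraMap O F π ≠ 0 := hV.pi_ne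
  have hvR : ∀ (i : ι) (x : R), (W i).valuation (x : F) ≤ 1 := fun i x =>
    (ValuationSubring.valuation_le_one_iff _ _).2 (hR.le_W i _ x.2)
  refine ⟨a₁ * a₂, Ideal.IsPrime.mul_notMem ‹_› ha₁ ha₂, a₁ * (a₂ * sApx n f g (E * r)),
    mul_mem_rootMod hR hn a₁.2 hy₂,
    ((a₁ : F) * ((a₂ : F) * sApx n f h (E * r) - a₂ * sApx n f g (E * r))) /
      algebraMap O F π ^ r, ?_, ?_⟩
  · intro i
    have hvn : (W i).valuation (n : F) = 1 := Local_val_natCast hR hnO i
    have hϖv : (W i).valuation (algebraMap O F π) ^ r ≠ 0 :=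
      pow_ne_zero _ ((Valuation.ne_zero_iff _).2 hϖ)
    rw [← ValuationSubring.valuation_le_one_iff, map_div₀, map_pow,
      div_le_one₀ (zero_lt_iff.2 hϖv), map_mul]
    by_cases hi : Thru W 𝔫 i
    · have h1 := sApx_congr (W i).valuation n hvn f h g (algebraMap O F π) E (hV.disc i) (hf i)
        (hh i) (hgh i hi) r
      rw [← mul_sub, map_mul]
      calc (W i).valuation (a₁ : F) * ((W i).valuation (a₂ : F) *
            (W i).valuation (sApx n f h (E * r) - sApx n f g (E * r)))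
          ≤ 1 * (1 * (W i).valuation (algebraMap O F π) ^ r) := by
            gcongr
            · exact hvR i a₁
            · exact hvR i a₂
        _ = _ := by rw [one_mul, one_mul]
    · have h1 := (sApx_spec (W i).valuation n hvn f h (algebraMap O F π) E (hV.disc i) (hf i)
        (hh i) r).1
      have hvh : (W i).valuation h ≤ 1 := by
        by_contra hlt
        rw [not_le] at hlt
        have h3 : (W i).valuation f < (W i).valuation (h ^ n) := by
          rw [hf i, map_pow]; exact one_lt_pow₀ hlt hn.ne'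
        have h4 := Valuation.map_sub_eq_of_lt_right (W i).valuation h3
        have h5 := hh i
        rw [h4, map_pow] at h5
        exact absurd h5 (not_lt.2 (one_lt_pow₀ hlt hn.ne').le)
      have h2 : (W i).valuation (sApx n f h (E * r)) ≤ 1 := by
        have : sApx n f h (E * r) = (sApx n f h (E * r) - h) + h := by ring
        rw [this]
        exact (Valuation.map_add _ _ _).trans (max_le h1.le hvh)
      have h3 : (W i).valuation ((a₂ : F) * sApx n f g (E * r)) ≤ 1 :=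
        (ValuationSubring.valuation_le_one_iff _ _).2 (rootMod_le_W hR hn hf hy₂ i)
      have h4 : (W i).valuation ((a₂ : F) * sApx n f h (E * r)) ≤ 1 := by
        rw [map_mul]; exact mul_le_one' (hvR i a₂) h2
      have h5 : (W i).valuation ((a₂ : F) * sApx n f h (E * r) - a₂ * sApx n f g (E * r)) ≤ 1 :=
        (Valuation.map_sub _ _ _).trans (max_le h4 h3)
      calc (W i).valuation (a₁ : F) *
            (W i).valuation ((a₂ : F) * sApx n f h (E * r) - a₂ * sApx n f g (E * r))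
          ≤ (W i).valuation (algebraMap O F π) ^ r * 1 := by
            gcongr
            exact hv₁ i hi
        _ = _ := mul_one _
  · rw [Subring.coe_mul]
    field_simp
    ring

/-- the ideal `{a ∈ R | a s ∈ M + ϖ Õ}`. -/
def goodIdeal (ϖ s : F) : Ideal R where
  carrier := {a | ∃ y ∈ rootMod hR n hn f, ∃ z : F, (∀ i, z ∈ W i) ∧ (a : F) * s = y + ϖ * z}
  add_mem' := by
    rintro a b ⟨y, hy, z, hz, e⟩ ⟨y', hy', z', hz', e'⟩
    refine ⟨y + y', add_mem hy hy', z + z', fun i => add_mem (hz i) (hz' i), ?_⟩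
    rw [Subring.coe_add, add_mul, e, e']; ring
  zero_mem' := ⟨0, zero_mem _, 0, fun i => zero_mem _, by simp⟩
  smul_mem' := by
    rintro b a ⟨y, hy, z, hz, e⟩
    refine ⟨b * y, mul_mem_rootMod hR hn b.2 hy, b * z, fun i => mul_mem (hR.le_W i _ b.2) (hz i), ?_⟩
    rw [smul_eq_mul, Subring.coe_mul, mul_assoc, e]; ring

/-- **Block L (local ⟹ global on one chart).** -/
theorem approx_of_localRoot [Finite ι] {E : ℕ} (hV : Vert π W E) (hnO : IsUnit (n : O)) {h : F}
    (hf : ∀ i, (W i).valuation f = 1) (hh : ∀ i, (W i).valuation (f - h ^ n) < 1)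
    (loc : LocalRoot π W R n f h) (r : ℕ) :
    ∃ y ∈ rootMod hR n hn f, ∃ z : F, (∀ i, z ∈ W i) ∧
      sApx n f h (E * r) = y + algebraMap O F π ^ r * z := by
  set s := sApx n f h (E * r) with hs
  have hsW : ∀ i, s ∈ W i := by
    intro i
    have hvn : (W i).valuation (n : F) = 1 := by
      obtain ⟨u, hu⟩ := hnO
      have h1 : (W i).valuation (algebraMap O F (u : O)) ≤ 1 :=
        (ValuationSubring.valuation_le_one_iff _ _).2 (hR.algebraMap_mem_W _ i)
      have h2 : (W i).valuation (algebraMap O F ((u⁻¹ : Oˣ) : O)) ≤ 1 :=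
        (ValuationSubring.valuation_le_one_iff _ _).2 (hR.algebraMap_mem_W _ i)
      have h3 : (W i).valuation (algebraMap O F (u : O)) *
          (W i).valuation (algebraMap O F ((u⁻¹ : Oˣ) : O)) = 1 := by
        rw [← map_mul, ← map_mul, Units.mul_inv, map_one, map_one]
      have h4 : (W i).valuation (algebraMap O F (u : O)) = 1 := by
        refine le_antisymm h1 ?_
        calc (1 : (W i).ValueGroup) = _ := h3.symm
          _ ≤ (W i).valuation (algebraMap O F (u : O)) * 1 := by gcongr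
          _ = _ := mul_one _
      rw [hu, map_natCast] at h4
      exact h4
    have h1 := (sApx_spec (W i).valuation n hvn f h (algebraMap O F π) E (hV.disc i) (hf i) (hh i) r).2
    rw [← ValuationSubring.valuation_le_one_iff]
    by_contra hlt
    rw [not_le] at hlt
    have h2 : (W i).valuation (s ^ n) = (W i).valuation (s ^ n - f) := by
      have h3 : (W i).valuation f < (W i).valuation (s ^ n) := by
        rw [hf i, map_pow]; exact one_lt_pow₀ hlt hn.ne'
      have := Valuation.map_sub_eq_of_lt_left (W i).valuation h3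
      exact this.symm
    have h4 : (W i).valuation (s ^ n - f) ≤ 1 :=
      h1.trans (pow_le_one₀ zero_le' (hV.pi_lt i).le)
    rw [← h2, map_pow] at h4
    exact absurd h4 (not_le.2 (one_lt_pow₀ hlt hn.ne'))
  have key : goodIdeal hR hn (f := f) (algebraMap O F π ^ r) s = ⊤ := by
    by_contra hne
    obtain ⟨𝔫, h𝔫, hle⟩ := Ideal.exists_le_maximal _ hne
    haveI := h𝔫.isPrime
    by_cases hπ : ∀ x : R, (x : F) = algebraMap O F π → x ∈ 𝔫
    · obtain ⟨g, hg, ⟨s', t', hs', ht', hfg⟩, hgh⟩ := loc 𝔫 h𝔫 hπ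
      obtain ⟨a, ha, y, hy, z, hz, e⟩ :=
        local_claim hR hn hV hnO hf hh 𝔫 hg hs' ht' hfg hgh r
      exact ha (hle ⟨y, hy, z, hz, e⟩)
    · push_neg at hπ
      obtain ⟨x, hx, hx𝔫⟩ := hπ
      have : x ^ r ∈ goodIdeal hR hn (f := f) (algebraMap O F π ^ r) s :=
        ⟨0, zero_mem _, s, hsW, by rw [Subring.coe_pow, hx, zero_add]⟩
      exact hx𝔫 (Ideal.IsPrime.mem_of_pow_mem ‹_› r (hle this))
  have h1 : (1 : R) ∈ goodIdeal hR hn (f := f) (algebraMap O F π ^ r) s := by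
    rw [key]; trivial
  obtain ⟨y, hy, z, hz, e⟩ := h1
  exact ⟨y, hy, z, hz, by simpa using e⟩

end

end Fermat.Agent.S36R.Inj
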