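import Fermat.Agent.S36R.Inj.CechRoot
import Fermat.Agent.S36R.Inj.Local

/-!
# S36 route R, block (7) `INJ_reg`: the main theorem (form (b))

If `f` is a unit on all vertical components, `h` is a simultaneous `n`-th root of `f` on the components, and at
every closed point of the special fibre `f = (unit) * g ^ n` with `g ≡ h` on the components through the point,
then `f = λ Φ ^ n` with `λ ∈ R₀ ∩ R₁` (a constant).
-/

set_option autoImplicit false
set_option maxHeartbeats 400000

namespace Fermat.Agent.S36R.Inj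

variable {O : Type*} [CommRing O] {F : Type*} [Field F] [Algebra O F] {ι : Type*}

/-- **INJ_reg, form (b).** -/
theorem inj_reg [IsNoetherianRing O] [Finite ι] [Nonempty ι] {π : O} {W : ι → ValuationSubring F}
    {E : ℕ} (hV : Vert π W E) {c : F} (hc : c ≠ 0) {R₀ R₁ : Subring F}
    (h₀ : Chart π W c R₀) (h₁ : Chart π W c⁻¹ R₁)
    (sh₀ : ∀ z ∈ R₀, ∃ k : ℕ, c⁻¹ ^ k * z ∈ R₁) (sh₁ : ∀ z ∈ R₁, ∃ k : ℕ, c ^ k * z ∈ R₀)
    {n : ℕ} (hn : 0 < n) (hnO : IsUnit (n : O)) {f h : F}
    (hf : ∀ i, (W i).valuation f = 1) (hh : ∀ i, (W i).valuation (f - h ^ n) < 1)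
    (loc₀ : LocalRoot π W R₀ n f h) (loc₁ : LocalRoot π W R₁ n f h) :
    ∃ Φ : F, Φ ≠ 0 ∧ Φ ^ n * f⁻¹ ∈ R₀ ∧ Φ ^ n * f⁻¹ ∈ R₁ := by
  obtain ⟨i₀⟩ := ‹Nonempty ι›
  have hf0 : f ≠ 0 := by
    intro h0
    have := hf i₀
    rw [h0, map_zero] at this
    exact zero_ne_one this
  have hvn : ∀ i, (W i).valuation (n : F) = 1 := by
    intro i
    obtain ⟨u, hu⟩ := hnO
    have h1 : (W i).valuation (algebraMap O F (u : O)) ≤ 1 :=
      (ValuationSubring.valuation_le_one_iff _ _).2 (h₀.algebraMap_mem_W _ i)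
    have h2 : (W i).valuation (algebraMap O F ((u⁻¹ : Oˣ) : O)) ≤ 1 :=
      (ValuationSubring.valuation_le_one_iff _ _).2 (h₀.algebraMap_mem_W _ i)
    have h3 : (W i).valuation (algebraMap O F (u : O)) *
        (W i).valuation (algebraMap O F ((u⁻¹ : Oˣ) : O)) = 1 := by
      rw [← map_mul, ← map_mul, Units.mul_inv, map_one, map_one]
    have h4 : (W i).valuation (algebraMap O F (u : O)) = 1 := by
      refine le_antisymm h1 ?_
      calc (1 : (W i).ValueGroup) = _ := h3.symm
        _ ≤ (W i).valuation (algebraMap O F (u : O)) * 1 := by gcongr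
        _ = _ := mul_one _
    rw [hu, map_natCast] at h4
    exact h4
  obtain ⟨Φ, hΦ0, hΦ₀, hΦ₁⟩ := cech_glue π hc (cechData_rootMod h₀ h₁ sh₀ sh₁ hn hf0)
    (otil W h₀.algebraMap_mem_W)
    (fun z hz i => mul_mem (h₀.le_W i _ h₀.c_mem) (hz i))
    (fun z hz hπz => rootMod_sat h₀ hn hf hz hπz)
    (fun z hz i => rootMod_le_W h₀ hn hf hz i)
    (fun r => by
      refine ⟨sApx n f h (E * r), ?_, ?_, ?_⟩
      · intro z hz e
        -- `sApx` is a unit of `W i₀`, `π • z` is not
        have h1 := (sApx_spec (W i₀).valuation n (hvn i₀) f h (algebraMap O F π) E (hV.disc i₀)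
          (hf i₀) (hh i₀) r).2
        have h2 : (W i₀).valuation (π • z) < 1 := by
          rw [Algebra.smul_def, map_mul]
          calc _ ≤ (W i₀).valuation (algebraMap O F π) * 1 := by
                gcongr
                exact (ValuationSubring.valuation_le_one_iff _ _).2 (hz i₀)
            _ < 1 := by rw [mul_one]; exact hV.pi_lt i₀
        by_cases hr : r = 0
        · -- `r = 0`: `sApx = h`
          subst hr
          have h3 : sApx n f h (E * 0) = h := by simp [sApx]
          rw [h3] at e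
          have h4 : (W i₀).valuation (h ^ n) < 1 := by
            rw [map_pow, e]; exact pow_lt_one₀ zero_le' h2 hn.ne'
          have h5 : (W i₀).valuation f < 1 := by
            have : f = (f - h ^ n) + h ^ n := by ring
            rw [this]
            exact lt_of_le_of_lt ((W i₀).valuation.map_add _ _) (max_lt (hh i₀) h4)
          rw [hf i₀] at h5
          exact lt_irrefl _ h5
        · have h4 : (W i₀).valuation (sApx n f h (E * r) ^ n) < 1 := by
            rw [map_pow, e]; exact pow_lt_one₀ zero_le' h2 hn.ne'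
          have h6 : (W i₀).valuation (sApx n f h (E * r) ^ n - f) < 1 :=
            lt_of_le_of_lt h1 (pow_lt_one₀ zero_le' (hV.pi_lt i₀) hr)
          have h5 : (W i₀).valuation f < 1 := by
            have : f = sApx n f h (E * r) ^ n - (sApx n f h (E * r) ^ n - f) := by ring
            rw [this]
            exact lt_of_le_of_lt ((W i₀).valuation.map_sub _ _) (max_lt h4 h6)
          rw [hf i₀] at h5
          exact lt_irrefl _ h5
      · obtain ⟨y, hy, z, hz, e⟩ := approx_of_localRoot h₀ hn hV hnO hf hh loc₀ r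
        exact ⟨y, hy, z, hz, by rw [e, Algebra.smul_def, map_pow]⟩
      · obtain ⟨y, hy, z, hz, e⟩ := approx_of_localRoot h₁ hn hV hnO hf hh loc₁ r
        exact ⟨y, hy, z, hz, by rw [e, Algebra.smul_def, map_pow]⟩)
  exact ⟨Φ, hΦ0, hΦ₀, hΦ₁⟩

end Fermat.Agent.S36R.Inj
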