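import Fermat.Agent.S36R.Inj.Apx

/-!
# S36 route R, block (7) `INJ_reg`: charts and the modules `M_R(f, n) = {z | z ^ n / f ∈ R}`

`O` a noetherian ring (in the application the DVR `A ∩ K^I`), `π : O`, `F` a field which is an `O`-algebra,
`W i` finitely many "vertical" valuation rings of `F`, `R ⊆ F` a normal subring (a chart of the model).
-/

set_option autoImplicit false
set_option maxHeartbeats 400000

namespace Fermat.Agent.S36R.Inj

variable {O : Type*} [CommRing O] {F : Type*} [Field F] [Algebra O F] {ι : Type*}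

/-- the vertical valuations: `π` is a non unit and `e(W i) ≤ E`. -/
structure Vert (π : O) (W : ι → ValuationSubring F) (E : ℕ) : Prop where
  pi_lt : ∀ i, (W i).valuation (algebraMap O F π) < 1
  pi_ne : algebraMap O F π ≠ 0
  disc : ∀ i (z : F), (W i).valuation z < 1 →
    (W i).valuation z ^ E ≤ (W i).valuation (algebraMap O F π)

/-- `R` is a chart with coordinate `c`: (think of) the integral closure of `O[c]` in `F`. -/
structure Chart (π : O) (W : ι → ValuationSubring F) (c : F) (R : Subring F) : Prop where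
  algebraMap_mem : ∀ a : O, algebraMap O F a ∈ R
  c_mem : c ∈ R
  /-- consequence of normality. -/
  root_closed : ∀ (z : F) (m : ℕ), 0 < m → z ^ m ∈ R → z ∈ R
  /-- `F` is the fraction field of `R`. -/
  frac : ∀ z : F, ∃ b ∈ R, b ≠ 0 ∧ b * z ∈ R
  /-- `R` is contained in a finitely generated `O[c]`-module. -/
  finite : ∃ u : Finset F, ∀ z ∈ R, z ∈ Submodule.span (Algebra.adjoin O {c}) (u : Set F)
  le_W : ∀ i, ∀ z ∈ R, z ∈ W i
  /-- `R = R[1/π] ∩ ⋂ W i`. -/
  sat : ∀ z : F, algebraMap O F π * z ∈ R → (∀ i, z ∈ W i) → z ∈ R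

/-- `Õ = ⋂ W i` as an `O`-submodule of `F`. -/
def otil (W : ι → ValuationSubring F) (hW : ∀ (a : O) i, algebraMap O F a ∈ W i) :
    Submodule O F where
  carrier := {z | ∀ i, z ∈ W i}
  add_mem' ha hb i := add_mem (ha i) (hb i)
  zero_mem' i := zero_mem _
  smul_mem' a z hz i := by
    rw [Algebra.smul_def]; exact mul_mem (hW a i) (hz i)

theorem mem_otil {W : ι → ValuationSubring F} {hW : ∀ (a : O) i, algebraMap O F a ∈ W i} {z : F} :
    z ∈ otil W hW ↔ ∀ i, z ∈ W i := Iff.rfl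

theorem Chart.algebraMap_mem_W {π : O} {W : ι → ValuationSubring F} {c : F} {R : Subring F}
    (h : Chart π W c R) (a : O) (i : ι) : algebraMap O F a ∈ W i :=
  h.le_W i _ (h.algebraMap_mem a)

/-- **Leaf RM1.**
PROOF. `(a + b) ^ n / f = ∑_k binom(n,k) a ^ k b ^ (n-k) / f` (`add_pow`, `Finset.sum_mul`); the element
`t = a ^ k b ^ (n-k) / f` (`k ≤ n`) satisfies `t ^ n = (a ^ n / f) ^ k (b ^ n / f) ^ (n-k) ∈ R`, so `t ∈ R` by `hR`.
(if `f = 0` everything is `0`.) -/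
theorem rootSet_add {R : Subring F} (hR : ∀ (z : F) (m : ℕ), 0 < m → z ^ m ∈ R → z ∈ R) {n : ℕ}
    (hn : 0 < n) {f a b : F} (ha : a ^ n * f⁻¹ ∈ R) (hb : b ^ n * f⁻¹ ∈ R) :
    (a + b) ^ n * f⁻¹ ∈ R := by
  rw [add_pow, Finset.sum_mul]
  refine sum_mem fun k hk => ?_
  have hk' : k ≤ n := Nat.lt_succ_iff.mp (Finset.mem_range.mp hk)
  have ht : a ^ k * b ^ (n - k) * f⁻¹ ∈ R := by
    refine hR _ n hn ?_
    have : (a ^ k * b ^ (n - k) * f⁻¹) ^ n = (a ^ n * f⁻¹) ^ k * (b ^ n * f⁻¹) ^ (n - k) := by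
      have h1 : (f⁻¹) ^ n = (f⁻¹) ^ k * (f⁻¹) ^ (n - k) := by
        rw [← pow_add, Nat.add_sub_cancel' hk']
      rw [mul_pow, mul_pow, mul_pow, mul_pow, h1, ← pow_mul, ← pow_mul, ← pow_mul, ← pow_mul,
        mul_comm k n, mul_comm (n - k) n]
      ring
    rw [this]
    exact mul_mem (pow_mem ha _) (pow_mem hb _)
  have : a ^ k * b ^ (n - k) * (n.choose k : F) * f⁻¹
      = (n.choose k : F) * (a ^ k * b ^ (n - k) * f⁻¹) := by ring
  rw [this]
  exact mul_mem (natCast_mem R _) ht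

/-- `M_R(f, n) = {z | z ^ n / f ∈ R}` ("sections of `O(- div f / n)` over the chart `R`"). -/
def rootMod {π : O} {W : ι → ValuationSubring F} {c : F} {R : Subring F} (h : Chart π W c R)
    (n : ℕ) (hn : 0 < n) (f : F) : Submodule O F where
  carrier := {z | z ^ n * f⁻¹ ∈ R}
  add_mem' ha hb := rootSet_add h.root_closed hn ha hb
  zero_mem' := by
    show (0 : F) ^ n * f⁻¹ ∈ R
    rw [zero_pow hn.ne', zero_mul]; exact zero_mem _
  smul_mem' a z hz := by
    show (a • z) ^ n * f⁻¹ ∈ R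
    have : (a • z) ^ n * f⁻¹ = algebraMap O F a ^ n * (z ^ n * f⁻¹) := by
      rw [Algebra.smul_def]; ring
    rw [this]; exact mul_mem (pow_mem (h.algebraMap_mem a) n) hz

section

variable {π : O} {W : ι → ValuationSubring F} {c : F} {R : Subring F} (h : Chart π W c R)
  {n : ℕ} (hn : 0 < n) {f : F}

theorem mem_rootMod {z : F} : z ∈ rootMod h n hn f ↔ z ^ n * f⁻¹ ∈ R := Iff.rfl

theorem mul_mem_rootMod {b z : F} (hb : b ∈ R) (hz : z ∈ rootMod h n hn f) :
    b * z ∈ rootMod h n hn f := by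
  rw [mem_rootMod] at hz ⊢
  have : (b * z) ^ n * f⁻¹ = b ^ n * (z ^ n * f⁻¹) := by ring
  rw [this]; exact mul_mem (pow_mem hb n) hz

/-- **Leaf RM2.** `M ⊆ Õ` if `f` is a unit of all `W i`.
(`v (z ^ n / f) ≤ 1`, `v f = 1` ⟹ `v z ^ n ≤ 1` ⟹ `v z ≤ 1`: `pow_le_one_iff`/`by_contra` + `one_lt_pow₀`.) -/
theorem rootMod_le_W (hf : ∀ i, (W i).valuation f = 1) {z : F} (hz : z ∈ rootMod h n hn f) (i : ι) :
    z ∈ W i := by
  rw [mem_rootMod] at hz
  have h1 := h.le_W i _ hz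
  rw [← ValuationSubring.valuation_le_one_iff] at h1 ⊢
  rw [map_mul, map_inv₀, hf i, inv_one, mul_one, map_pow] at h1
  by_contra hlt
  exact absurd h1 (not_le.mpr (one_lt_pow₀ (not_le.mp hlt) hn.ne'))

/-- **Leaf RM3.** saturation: `M ∩ π Õ = π M`.
PROOF. `(π z) ^ n / f = π ^ n (z ^ n / f) ∈ R`, `z ^ n / f ∈ W i` for all `i`; apply `h.sat` `n` times
(induction: `∀ k y, π ^ k * y ∈ R → (∀ i, y ∈ W i) → y ∈ R`; `π ^ k * y ∈ W i` by `h.algebraMap_mem_W`). -/
theorem rootMod_sat (hf : ∀ i, (W i).valuation f = 1) {z : F} (hz : ∀ i, z ∈ W i)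
    (hπz : π • z ∈ rootMod h n hn f) : z ∈ rootMod h n hn f := by
  have key : ∀ (k : ℕ) (y : F), algebraMap O F π ^ k * y ∈ R → (∀ i, y ∈ W i) → y ∈ R := by
    intro k
    induction k with
    | zero => intro y hy _; simpa using hy
    | succ k ih =>
      intro y hy hyW
      refine ih y (h.sat _ ?_ fun i => mul_mem (pow_mem (h.algebraMap_mem_W π i) k) (hyW i)) hyW
      rw [← mul_assoc, ← pow_succ']
      exact hy
  rw [mem_rootMod] at hπz ⊢
  refine key n _ ?_ fun i => ?_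
  · have : algebraMap O F π ^ n * (z ^ n * f⁻¹) = (π • z) ^ n * f⁻¹ := by
      rw [Algebra.smul_def]; ring
    rw [this]; exact hπz
  · rw [← ValuationSubring.valuation_le_one_iff, map_mul, map_inv₀, hf i, inv_one, mul_one,
      map_pow]
    exact pow_le_one₀ zero_le ((ValuationSubring.valuation_le_one_iff _ _).mpr (hz i))

/-- **Leaf RM4.** clearing denominators: `b M ⊆ R` for some `b ≠ 0`.
PROOF. `h.frac f⁻¹`... : take `b ∈ R`, `b ≠ 0` with `b * f ∈ R` (`h.frac f`).  For `z ∈ M`: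
`(b z) ^ n = b ^ (n-1) * (b f) * (z ^ n / f) ∈ R` (if `f ≠ 0`; if `f = 0` the statement `hf0` excludes it), so
`b z ∈ R` by `h.root_closed`. -/
theorem exists_clear_rootMod (hf0 : f ≠ 0) :
    ∃ b ∈ R, b ≠ 0 ∧ ∀ z ∈ rootMod h n hn f, b * z ∈ R := by
  obtain ⟨b, hb, hb0, hbf⟩ := h.frac f
  refine ⟨b, hb, hb0, fun z hz => h.root_closed _ n hn ?_⟩
  rw [mem_rootMod] at hz
  have : (b * z) ^ n = b ^ (n - 1) * (b * f) * (z ^ n * f⁻¹) := by
    obtain ⟨m, rfl⟩ : ∃ m, n = m + 1 := ⟨n - 1, (Nat.sub_add_cancel hn).symm⟩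
    rw [Nat.add_sub_cancel]
    field_simp
    ring
  rw [this]
  exact mul_mem (mul_mem (pow_mem hb _) hbf) hz

end

end Fermat.Agent.S36R.Inj
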