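import Fermat.Agent.S36R.Inj.FormD

/-!
# S36 route R, block (7): the hypotheses `sh₀`, `sh₁` of `inj_reg` for integral closures

`z` integral over `O[c]` ⟹ `c⁻¹ ^ k * z` integral over `O[c⁻¹]` for some `k`.
-/

set_option autoImplicit false
set_option maxHeartbeats 400000

namespace Fermat.Agent.S36R.Inj

open Polynomial

variable {O : Type*} [CommRing O] {F : Type*} [Field F] [Algebra O F]

/-- an element of `O[c]` becomes an element of `O[c⁻¹]` after multiplication by a power of `c⁻¹`, and the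
exponent can be increased. -/
theorem Shift_adjoin {c : F} (hc : c ≠ 0) (a : F) (ha : a ∈ Algebra.adjoin O {c}) :
    ∃ k : ℕ, ∀ m, k ≤ m → c⁻¹ ^ m * a ∈ Algebra.adjoin O {c⁻¹} := by
  have hci : c⁻¹ ∈ Algebra.adjoin O {c⁻¹} := Algebra.subset_adjoin rfl
  induction ha using Algebra.adjoin_induction with
  | mem x hx =>
    rw [Set.mem_singleton_iff] at hx
    subst hx
    refine ⟨1, fun m hm => ?_⟩
    obtain ⟨m, rfl⟩ : ∃ m', m = m' + 1 := ⟨m - 1, by omega⟩
    have : x⁻¹ ^ (m + 1) * x = x⁻¹ ^ m := by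
      rw [pow_succ, mul_assoc, inv_mul_cancel₀ hc, mul_one]
    rw [this]; exact pow_mem hci m
  | algebraMap r =>
    exact ⟨0, fun m _ => mul_mem (pow_mem hci m) (Subalgebra.algebraMap_mem _ r)⟩
  | add p q _ _ hp hq =>
    obtain ⟨k, hk⟩ := hp
    obtain ⟨l, hl⟩ := hq
    refine ⟨max k l, fun m hm => ?_⟩
    rw [mul_add]
    exact add_mem (hk m (le_trans (le_max_left _ _) hm)) (hl m (le_trans (le_max_right _ _) hm))
  | mul p q _ _ hp hq =>
    obtain ⟨k, hk⟩ := hp
    obtain ⟨l, hl⟩ := hq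
    refine ⟨k + l, fun m hm => ?_⟩
    obtain ⟨m', rfl⟩ : ∃ m', m = k + m' := ⟨m - k, by omega⟩
    have : c⁻¹ ^ (k + m') * (p * q) = (c⁻¹ ^ k * p) * (c⁻¹ ^ m' * q) := by rw [pow_add]; ring
    rw [this]
    exact mul_mem (hk k le_rfl) (hl m' (by omega))

/-- **`sh`.** -/
theorem exists_shift_isIntegral {c : F} (hc : c ≠ 0) (z : F)
    (hz : IsIntegral (Algebra.adjoin O {c}) z) :
    ∃ k : ℕ, IsIntegral (Algebra.adjoin O {c⁻¹}) (c⁻¹ ^ k * z) := by
  classical
  obtain ⟨p, hp, hpz⟩ := hz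
  -- a common exponent for all coefficients
  have h1 : ∀ i, ∃ k : ℕ, ∀ m, k ≤ m → c⁻¹ ^ m * (p.coeff i : F) ∈ Algebra.adjoin O {c⁻¹} :=
    fun i => Shift_adjoin hc _ (p.coeff i).2
  choose κ hκ using h1
  set k := (Finset.range (p.natDegree + 1)).sup κ with hk
  have hk' : ∀ i ≤ p.natDegree, κ i ≤ k := fun i hi =>
    Finset.le_sup (f := κ) (Finset.mem_range.2 (by omega))
  refine ⟨k, ?_⟩
  set P : F[X] := (p.map (algebraMap (Algebra.adjoin O {c}) F)).scaleRoots (c⁻¹ ^ k) with hP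
  have hPm : P.Monic := (monic_scaleRoots_iff _).2 (hp.map _)
  have hdeg : (p.map (algebraMap (Algebra.adjoin O {c}) F)).natDegree = p.natDegree :=
    hp.natDegree_map _
  have hPz : P.eval (c⁻¹ ^ k * z) = 0 := by
    have h0 : (p.map (algebraMap (Algebra.adjoin O {c}) F)).eval z = 0 := by
      rw [eval_map]; exact hpz
    have := scaleRoots_eval₂_eq_zero (RingHom.id F) (p := p.map (algebraMap (Algebra.adjoin O {c}) F))
      (r := z) (s := c⁻¹ ^ k) (by rwa [eval₂_id])
    rw [eval₂_id] at this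
    exact this
  have hci : c⁻¹ ∈ Algebra.adjoin O {c⁻¹} := Algebra.subset_adjoin rfl
  have hcoef : ∀ i, P.coeff i ∈ (Algebra.adjoin O {c⁻¹}).toSubring := by
    intro i
    rw [hP, coeff_scaleRoots, hdeg, coeff_map]
    show _ ∈ Algebra.adjoin O {c⁻¹}
    rcases lt_trichotomy i p.natDegree with hi | hi | hi
    · obtain ⟨e, he⟩ : ∃ e, p.natDegree - i = e + 1 := ⟨p.natDegree - i - 1, by omega⟩
      rw [he, pow_succ]
      have : algebraMap (Algebra.adjoin O {c}) F (p.coeff i) * ((c⁻¹ ^ k) ^ e * c⁻¹ ^ k)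
          = (c⁻¹ ^ k) ^ e * (c⁻¹ ^ k * (p.coeff i : F)) := by
        rw [show algebraMap (Algebra.adjoin O {c}) F (p.coeff i) = (p.coeff i : F) from rfl]; ring
      rw [this]
      exact mul_mem (pow_mem (pow_mem hci k) e) (hκ i k (hk' i hi.le))
    · subst hi
      rw [Nat.sub_self, pow_zero, mul_one, hp.coeff_natDegree, map_one]
      exact one_mem _
    · rw [coeff_eq_zero_of_natDegree_lt hi, map_zero, zero_mul]
      exact zero_mem _
  have hsub : (↑P.coeffs : Set F) ⊆ (Algebra.adjoin O {c⁻¹}).toSubring := by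
    intro y hy
    obtain ⟨i, _, rfl⟩ := by simpa [coeffs] using hy
    exact hcoef i
  refine ⟨P.toSubring (Algebra.adjoin O {c⁻¹}).toSubring hsub, ?_, ?_⟩
  · exact (monic_toSubring _ _ _).2 hPm
  · have h2 := map_toSubring P (Algebra.adjoin O {c⁻¹}).toSubring hsub
    have h3 : eval (c⁻¹ ^ k * z)
        (map (Algebra.adjoin O {c⁻¹}).toSubring.subtype
          (P.toSubring (Algebra.adjoin O {c⁻¹}).toSubring hsub)) = 0 := by
      rw [h2]; exact hPz
    rw [eval_map] at h3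
    exact h3

/-- `sh₀` of `inj_reg` for `R₀`, `R₁` the integral closures of `O[c]`, `O[c⁻¹]`. -/
theorem sh₀_integralClosure {c : F} (hc : c ≠ 0) :
    ∀ z ∈ (integralClosure (Algebra.adjoin O {c}) F).toSubring,
      ∃ k : ℕ, c⁻¹ ^ k * z ∈ (integralClosure (Algebra.adjoin O {c⁻¹}) F).toSubring :=
  fun z hz => exists_shift_isIntegral hc z hz

/-- `sh₁` of `inj_reg` for `R₀`, `R₁` the integral closures of `O[c]`, `O[c⁻¹]`. -/
theorem sh₁_integralClosure {c : F} (hc : c ≠ 0) :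
    ∀ z ∈ (integralClosure (Algebra.adjoin O {c⁻¹}) F).toSubring,
      ∃ k : ℕ, c ^ k * z ∈ (integralClosure (Algebra.adjoin O {c}) F).toSubring := by
  intro z hz
  have := exists_shift_isIntegral (O := O) (inv_ne_zero hc) z hz
  rw [inv_inv] at this
  exact this

end Fermat.Agent.S36R.Inj
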